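import Mathlib
import Fermat.Agent.Jac.AbelJacobi73.Factor

/-!
# T1B, brick Phi4 DESC' (F1, helper43): uniqueness of the factorisation into point pairs

Over Dedekind charts (`R01` a domain) a factorisation `D = pairProd l` of an ideal pair with
nonzero ideals into point pairs (`AbelJacobi73.exists_pointPair_factorisation`) is unique up to
permutation: `perm_of_pairProd_eq`.

The hypothesis `D.I0 ≠ ⊥`, `D.I1 ≠ ⊥` cannot be dropped (if `R0` is a field, `⊥` is a maximal
ideal and `[P]`, `[P, P]` have the same product).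
-/

set_option autoImplicit false
set_option linter.unusedSectionVars false
set_option linter.style.haveILetI false

universe u

namespace Fermat.Agent.T1B.Desc43

open Fermat.Agent.Jac Fermat.Agent.Jac.LineOps39 Fermat.Agent.Jac.AbelJacobi73

variable {A R0 R1 R01 : Type u} [CommRing A] [CommRing R0] [CommRing R1] [CommRing R01]
  [Algebra A R0] [Algebra A R1] [Algebra A R01] [Algebra R0 R01] [Algebra R1 R01]
  [IsScalarTower A R0 R01] [IsScalarTower A R1 R01]

/-! ### `pairProd` and permutations -/

theorem pairProd_I0 (l : List (IdealPair R0 R1 R01)) :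
    (pairProd l).I0 = (l.map IdealPair.I0).prod := by
  induction l with
  | nil => simp [Ideal.one_eq_top]
  | cons P t ih => simp [ih]

theorem pairProd_I1 (l : List (IdealPair R0 R1 R01)) :
    (pairProd l).I1 = (l.map IdealPair.I1).prod := by
  induction l with
  | nil => simp [Ideal.one_eq_top]
  | cons P t ih => simp [ih]

theorem pairProd_perm {l l' : List (IdealPair R0 R1 R01)} (h : l.Perm l') :
    pairProd l = pairProd l' :=
  idealPair_ext (by rw [pairProd_I0, pairProd_I0]; exact (h.map _).prod_eq)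
    (by rw [pairProd_I1, pairProd_I1]; exact (h.map _).prod_eq)

theorem exists_mem_I0_le {l : List (IdealPair R0 R1 R01)} {p : Ideal R0} (hp : p.IsPrime)
    (h : (pairProd l).I0 ≤ p) : ∃ P ∈ l, P.I0 ≤ p := by
  induction l with
  | nil => exact absurd (top_le_iff.1 (by simpa using h)) hp.ne_top
  | cons P t ih =>
    rw [pairProd_cons, mul_I0] at h
    rcases hp.mul_le.1 h with h | h
    · exact ⟨P, List.mem_cons_self, h⟩
    · obtain ⟨P', hP', hle⟩ := ih h
      exact ⟨P', List.mem_cons_of_mem _ hP', hle⟩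

theorem exists_mem_I1_le {l : List (IdealPair R0 R1 R01)} {p : Ideal R1} (hp : p.IsPrime)
    (h : (pairProd l).I1 ≤ p) : ∃ P ∈ l, P.I1 ≤ p := by
  induction l with
  | nil => exact absurd (top_le_iff.1 (by simpa using h)) hp.ne_top
  | cons P t ih =>
    rw [pairProd_cons, mul_I1] at h
    rcases hp.mul_le.1 h with h | h
    · exact ⟨P, List.mem_cons_self, h⟩
    · obtain ⟨P', hP', hle⟩ := ih h
      exact ⟨P', List.mem_cons_of_mem _ hP', hle⟩

/-! ### Points of the overlap -/

variable (c : TwoChart A R0 R1 R01)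

theorem disjoint_powers_of_map_ne_top {R S : Type*} [CommRing R] [CommRing S] [Algebra R S]
    (x : R) [IsLocalization.Away x S] (m : Ideal R) (h : m.map (algebraMap R S) ≠ ⊤) :
    Disjoint (Submonoid.powers x : Set R) (m : Set R) := by
  rw [Set.disjoint_left]
  intro y hy hym
  apply h
  apply Ideal.eq_top_of_isUnit_mem _ (Ideal.mem_map_of_mem _ hym)
  exact IsLocalization.map_units S (⟨y, hy⟩ : Submonoid.powers x)

/-- A point of chart 1 lying in the overlap is the same as the point of chart 0 below it. -/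
theorem ofChart1_eq_ofChart0 (m : Ideal R1) [hm : m.IsPrime]
    (h : m.map (algebraMap R1 R01) ≠ ⊤) :
    IdealPair.ofChart1 c m =
      IdealPair.ofChart0 c ((m.map (algebraMap R1 R01)).comap (algebraMap R0 R01)) := by
  haveI := c.away0
  haveI := c.away1
  refine idealPair_ext rfl ?_
  change m = (((m.map (algebraMap R1 R01)).comap (algebraMap R0 R01)).map
    (algebraMap R0 R01)).comap (algebraMap R1 R01)
  have h1 := IsLocalization.map_under (Submonoid.powers c.t) R01 (m.map (algebraMap R1 R01))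
  rw [Ideal.under] at h1
  rw [h1]
  exact (IsLocalization.under_map_of_isPrime_disjoint (Submonoid.powers c.s) R01 hm
    (disjoint_powers_of_map_ne_top c.s m h)).symm

/-- A point of chart 0 lying in the overlap is the same as the point of chart 1 below it. -/
theorem ofChart0_eq_ofChart1 (m : Ideal R0) [hm : m.IsPrime]
    (h : m.map (algebraMap R0 R01) ≠ ⊤) :
    IdealPair.ofChart0 c m =
      IdealPair.ofChart1 c ((m.map (algebraMap R0 R01)).comap (algebraMap R1 R01)) := by
  haveI := c.away0
  haveI := c.away1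
  refine idealPair_ext ?_ rfl
  change m = (((m.map (algebraMap R0 R01)).comap (algebraMap R1 R01)).map
    (algebraMap R1 R01)).comap (algebraMap R0 R01)
  have h1 := IsLocalization.map_under (Submonoid.powers c.s) R01 (m.map (algebraMap R0 R01))
  rw [Ideal.under] at h1
  rw [h1]
  exact (IsLocalization.under_map_of_isPrime_disjoint (Submonoid.powers c.t) R01 hm
    (disjoint_powers_of_map_ne_top c.t m h)).symm

theorem isPrime_comap_map_of_ne_top {R S R' : Type*} [CommRing R] [CommRing S] [CommRing R']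
    [Algebra R S] [Algebra R' S] (x : R) [IsLocalization.Away x S] (m : Ideal R) (hm : m.IsPrime)
    (h : m.map (algebraMap R S) ≠ ⊤) :
    ((m.map (algebraMap R S)).comap (algebraMap R' S)).IsPrime := by
  haveI := IsLocalization.isPrime_of_isPrime_disjoint (Submonoid.powers x) S m hm
    (disjoint_powers_of_map_ne_top x m h)
  exact Ideal.comap_isPrime _ _

variable [IsDedekindDomain R0] [IsDedekindDomain R1] [IsDomain R01]

/-- Structure of a point pair, seen from chart 0. -/
theorem isPointPair_cases0 {P : IdealPair R0 R1 R01} (hP : IsPointPair c P) (h0 : P.I0 ≠ ⊥) :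
    (P.I0.IsMaximal ∧ P = IdealPair.ofChart0 c P.I0) ∨
      (P.I0 = ⊤ ∧ P.I1.IsMaximal ∧ P = IdealPair.ofChart1 c P.I1) := by
  haveI := c.away0
  haveI := c.away1
  rcases hP with ⟨m, hm, rfl⟩ | ⟨m, hm, rfl⟩
  · exact Or.inl ⟨hm, rfl⟩
  · by_cases h : m.map (algebraMap R1 R01) = ⊤
    · refine Or.inr ⟨?_, hm, rfl⟩
      change (m.map (algebraMap R1 R01)).comap (algebraMap R0 R01) = ⊤
      rw [h, Ideal.comap_top]
    · left
      have hpr : ((m.map (algebraMap R1 R01)).comap (algebraMap R0 R01)).IsPrime :=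
        isPrime_comap_map_of_ne_top c.s m hm.isPrime h
      have hmax : ((m.map (algebraMap R1 R01)).comap (algebraMap R0 R01)).IsMaximal :=
        hpr.isMaximal h0
      haveI := hm.isPrime
      exact ⟨hmax, ofChart1_eq_ofChart0 c m h⟩

/-- Structure of a point pair, seen from chart 1. -/
theorem isPointPair_cases1 {P : IdealPair R0 R1 R01} (hP : IsPointPair c P) (h1 : P.I1 ≠ ⊥) :
    (P.I1.IsMaximal ∧ P = IdealPair.ofChart1 c P.I1) ∨
      (P.I1 = ⊤ ∧ P.I0.IsMaximal ∧ P = IdealPair.ofChart0 c P.I0) := by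
  haveI := c.away0
  haveI := c.away1
  rcases hP with ⟨m, hm, rfl⟩ | ⟨m, hm, rfl⟩
  · by_cases h : m.map (algebraMap R0 R01) = ⊤
    · refine Or.inr ⟨?_, hm, rfl⟩
      change (m.map (algebraMap R0 R01)).comap (algebraMap R1 R01) = ⊤
      rw [h, Ideal.comap_top]
    · left
      have hpr : ((m.map (algebraMap R0 R01)).comap (algebraMap R1 R01)).IsPrime :=
        isPrime_comap_map_of_ne_top c.t m hm.isPrime h
      have hmax : ((m.map (algebraMap R0 R01)).comap (algebraMap R1 R01)).IsMaximal :=
        hpr.isMaximal h1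
      haveI := hm.isPrime
      exact ⟨hmax, ofChart0_eq_ofChart1 c m h⟩
  · exact Or.inl ⟨hm, rfl⟩

/-- A point pair is not the unit pair. -/
theorem isPointPair_not_top {P : IdealPair R0 R1 R01} (hP : IsPointPair c P) :
    ¬ (P.I0 = ⊤ ∧ P.I1 = ⊤) := by
  rintro ⟨h0, h1⟩
  rcases hP with ⟨m, hm, rfl⟩ | ⟨m, hm, rfl⟩
  · exact hm.ne_top h0
  · exact hm.ne_top h1

/-! ### Uniqueness -/

theorem ne_bot_of_mul_ne_bot {R : Type*} [CommRing R] {I J : Ideal R} (h : I * J ≠ ⊥) :
    I ≠ ⊥ ∧ J ≠ ⊥ :=
  ⟨fun hI => h (by rw [hI, Ideal.bot_mul]), fun hJ => h (by rw [hJ, Ideal.mul_bot])⟩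

/-- All the members of a factorisation of a pair with nonzero ideals have nonzero ideals. -/
theorem ne_bot_of_mem_of_pairProd_ne_bot {l : List (IdealPair R0 R1 R01)}
    (h0 : (pairProd l).I0 ≠ ⊥) (h1 : (pairProd l).I1 ≠ ⊥) {P : IdealPair R0 R1 R01}
    (hP : P ∈ l) : P.I0 ≠ ⊥ ∧ P.I1 ≠ ⊥ := by
  induction l with
  | nil => simp at hP
  | cons P' t ih =>
    rw [pairProd_cons, mul_I0] at h0
    rw [pairProd_cons, mul_I1] at h1
    rcases List.mem_cons.1 hP with rfl | hP
    · exact ⟨(ne_bot_of_mul_ne_bot h0).1, (ne_bot_of_mul_ne_bot h1).1⟩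
    · exact ih (ne_bot_of_mul_ne_bot h0).2 (ne_bot_of_mul_ne_bot h1).2 hP

/-- **Uniqueness of the factorisation into points** (up to permutation). -/
theorem perm_of_pairProd_eq (l l' : List (IdealPair R0 R1 R01))
    (hl : ∀ P ∈ l, IsPointPair c P) (hl' : ∀ P ∈ l', IsPointPair c P)
    (h0 : (pairProd l).I0 ≠ ⊥) (h1 : (pairProd l).I1 ≠ ⊥)
    (h : pairProd l = pairProd l') : l.Perm l' := by
  classical
  induction l generalizing l' with
  | nil =>
    cases l' with
    | nil => exact List.Perm.refl _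
    | cons P' t' =>
      exfalso
      have hP' := hl' P' List.mem_cons_self
      have e0 : (⊤ : Ideal R0) = P'.I0 * (pairProd t').I0 := by
        have := congrArg IdealPair.I0 h
        simpa using this
      have e1 : (⊤ : Ideal R1) = P'.I1 * (pairProd t').I1 := by
        have := congrArg IdealPair.I1 h
        simpa using this
      apply isPointPair_not_top c hP'
      exact ⟨top_le_iff.1 (e0 ▸ Ideal.mul_le_left), top_le_iff.1 (e1 ▸ Ideal.mul_le_left)⟩
  | cons P t ih =>
    have hP := hl P List.mem_cons_self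
    have h0' := h0
    have h1' := h1
    rw [pairProd_cons, mul_I0] at h0'
    rw [pairProd_cons, mul_I1] at h1'
    have hP0 := (ne_bot_of_mul_ne_bot h0').1
    have hP1 := (ne_bot_of_mul_ne_bot h1').1
    have ht0 := (ne_bot_of_mul_ne_bot h0').2
    have ht1 := (ne_bot_of_mul_ne_bot h1').2
    have h0l' : (pairProd l').I0 ≠ ⊥ := h ▸ h0
    have h1l' : (pairProd l').I1 ≠ ⊥ := h ▸ h1
    -- `P` occurs in `l'`
    have hmem : P ∈ l' := by
      rcases isPointPair_cases0 c hP hP0 with ⟨hmax, hPeq⟩ | ⟨htop, hmax, hPeq⟩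
      · have hle : (pairProd l').I0 ≤ P.I0 := by
          rw [← h, pairProd_cons, mul_I0]; exact Ideal.mul_le_left
        obtain ⟨P', hP'mem, hP'le⟩ := exists_mem_I0_le hmax.isPrime hle
        have hP'ne := ne_bot_of_mem_of_pairProd_ne_bot h0l' h1l' hP'mem
        rcases isPointPair_cases0 c (hl' P' hP'mem) hP'ne.1 with ⟨hmax', hP'eq⟩ | ⟨htop', -, -⟩
        · have : P'.I0 = P.I0 := hmax'.eq_of_le hmax.ne_top hP'le
          rw [hPeq, ← this, ← hP'eq]; exact hP'mem
        · exact absurd (top_le_iff.1 (htop' ▸ hP'le)) hmax.ne_top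
      · have hle : (pairProd l').I1 ≤ P.I1 := by
          rw [← h, pairProd_cons, mul_I1]; exact Ideal.mul_le_left
        obtain ⟨P', hP'mem, hP'le⟩ := exists_mem_I1_le hmax.isPrime hle
        have hP'ne := ne_bot_of_mem_of_pairProd_ne_bot h0l' h1l' hP'mem
        rcases isPointPair_cases1 c (hl' P' hP'mem) hP'ne.2 with ⟨hmax', hP'eq⟩ | ⟨htop', -, -⟩
        · have : P'.I1 = P.I1 := hmax'.eq_of_le hmax.ne_top hP'le
          rw [hPeq, ← this, ← hP'eq]; exact hP'mem
        · exact absurd (top_le_iff.1 (htop' ▸ hP'le)) hmax.ne_top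
    have hperm : l'.Perm (P :: l'.erase P) := List.perm_cons_erase hmem
    have hprod : P.mul (pairProd t) = P.mul (pairProd (l'.erase P)) := by
      rw [← pairProd_cons, ← pairProd_cons, h, pairProd_perm hperm]
    have hcancel : pairProd t = pairProd (l'.erase P) := by
      apply idealPair_ext
      · have := congrArg IdealPair.I0 hprod
        simp only [mul_I0] at this
        exact mul_left_cancel₀ hP0 this
      · have := congrArg IdealPair.I1 hprod
        simp only [mul_I1] at this
        exact mul_left_cancel₀ hP1 this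
    have := ih (l'.erase P) (fun Q hQ => hl Q (List.mem_cons_of_mem _ hQ))
      (fun Q hQ => hl' Q (List.mem_of_mem_erase hQ)) ht0 ht1 hcancel
    exact (this.cons P).trans hperm.symm

/-- Multiset form of `perm_of_pairProd_eq`. -/
theorem coe_eq_coe_of_pairProd_eq (l l' : List (IdealPair R0 R1 R01))
    (hl : ∀ P ∈ l, IsPointPair c P) (hl' : ∀ P ∈ l', IsPointPair c P)
    (h0 : (pairProd l).I0 ≠ ⊥) (h1 : (pairProd l).I1 ≠ ⊥)
    (h : pairProd l = pairProd l') :
    (l : Multiset (IdealPair R0 R1 R01)) = (l' : Multiset (IdealPair R0 R1 R01)) :=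
  Multiset.coe_eq_coe.2 (perm_of_pairProd_eq c l l' hl hl' h0 h1 h)

/-- Existence and uniqueness together: an ideal pair with nonzero ideals over Dedekind charts has
a factorisation into point pairs, unique up to permutation. -/
theorem exists_pointPair_factorisation_unique (D : IdealPair R0 R1 R01) (h0 : D.I0 ≠ ⊥)
    (h1 : D.I1 ≠ ⊥) :
    ∃ l : List (IdealPair R0 R1 R01), (∀ P ∈ l, IsPointPair c P) ∧ D = pairProd l ∧
      ∀ l' : List (IdealPair R0 R1 R01), (∀ P ∈ l', IsPointPair c P) → D = pairProd l' →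
        l.Perm l' := by
  obtain ⟨l, hl, hD⟩ := exists_pointPair_factorisation c D h0 h1
  exact ⟨l, hl, hD, fun l' hl' hD' =>
    perm_of_pairProd_eq c l l' hl hl' (hD ▸ h0) (hD ▸ h1) (hD.symm.trans hD')⟩

end Fermat.Agent.T1B.Desc43
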