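import Mathlib
import Fermat.Agent.T1B.Desc1.Iface
import Fermat.Agent.T1.Adapt96.ToLinePair
import Fermat.Agent.T1B.Desc43.Unique

/-!
# T1B, brick Phi4 DESC' (B5, helper43): the class of a product of point ideals

`mk_ofIdeals_eq_prod` : if both ideals of `D` are the products of the ideals of the pairs of a
multiset `s` of points (with invertible ideals) of `X_A`, then `[O(-D)] = ∏_{x ∈ s} [O(-x)]` in
`Pic X_A`.  No hypothesis on the ring `A` or the charts.
-/

set_option autoImplicit false
set_option linter.unusedSectionVars false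
set_option linter.style.haveILetI false

open TensorProduct

namespace Fermat.Agent.T1B.Desc43

open Fermat.Agent.Jac Fermat.Agent.Jac.LineOps39 Fermat.Agent.Jac.AbelJacobi73
open Fermat.Agent.Jac.JGroup85Pic
open Fermat.Agent.Jac.BaseChange75 Fermat.Agent.T1.RedIface75
open Fermat.Agent.T1.PtLine75 Fermat.Agent.T1B.Desc1
open scoped Fermat.Agent.Jac.BaseChange75

universe u

section Abstract

variable {A R0 R1 R01 : Type u} [CommRing A] [CommRing R0] [CommRing R1] [CommRing R01]
  [Algebra A R0] [Algebra A R1] [Algebra A R01] [Algebra R0 R01] [Algebra R1 R01]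
  [IsScalarTower A R0 R01] [IsScalarTower A R1 R01] (c : TwoChart A R0 R1 R01)

/-- The unit ideal sheaf is a line. -/
theorem isLine_ofIdeals_top : (ofIdeals c (IdealPair.top : IdealPair R0 R1 R01)).IsLine :=
  isLine_ofIdeals c IdealPair.top
    (Module.Invertible.congr (Submodule.topEquiv (R := R0) (M := R0)).symm)
    (Module.Invertible.congr (Submodule.topEquiv (R := R1) (M := R1)).symm)

/-- The unit ideal sheaf has trivial class. -/
theorem mk_ofIdeals_top (h : (ofIdeals c (IdealPair.top : IdealPair R0 R1 R01)).IsLine) :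
    LinePic.mk c (ofIdeals c (IdealPair.top : IdealPair R0 R1 R01)) h = 1 := by
  have htt : (IdealPair.top : IdealPair R0 R1 R01).mul IdealPair.top = IdealPair.top :=
    AbelJacobi73.idealPair_ext (by simp) (by simp)
  have h2 : (ofIdeals c ((IdealPair.top : IdealPair R0 R1 R01).mul IdealPair.top)).IsLine := by
    rw [htt]; exact h
  have hm := Fermat.Agent.T1.Adapt96.mk_ofIdeals_mul c IdealPair.top IdealPair.top h h h2
  have hc : LinePic.mk c (ofIdeals c ((IdealPair.top : IdealPair R0 R1 R01).mul IdealPair.top)) h2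
      = LinePic.mk c (ofIdeals c (IdealPair.top : IdealPair R0 R1 R01)) h :=
    linePic_mk_congr c (by rw [htt]) h2 h
  rw [hc] at hm
  exact mul_eq_left.1 hm.symm

/-- The class of a product of ideal pairs all of whose ideal sheaves are lines. -/
theorem isLine_and_mk_pairProd (l : List (IdealPair R0 R1 R01))
    (hl : ∀ P ∈ l, (ofIdeals c P).IsLine) :
    ∃ h : (ofIdeals c (pairProd l)).IsLine,
      LinePic.mk c (ofIdeals c (pairProd l)) h =
        (l.pmap (fun P hP => LinePic.mk c (ofIdeals c P) hP) hl).prod := by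
  induction l with
  | nil => exact ⟨isLine_ofIdeals_top c, mk_ofIdeals_top c _⟩
  | cons P t ih =>
    obtain ⟨ht, hmk⟩ := ih (fun Q hQ => hl Q (List.mem_cons_of_mem _ hQ))
    have hP := hl P List.mem_cons_self
    have hPt : (ofIdeals c (P.mul (pairProd t))).IsLine :=
      Fermat.Agent.T1.Adapt96.isLine_ofIdeals_mul c P (pairProd t) hP ht
    refine ⟨hPt, ?_⟩
    rw [List.pmap_cons, List.prod_cons, ← hmk]
    exact Fermat.Agent.T1.Adapt96.mk_ofIdeals_mul c P (pairProd t) hP ht hPt

end Abstract

section Hub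

variable {W B0 B1 B01 : Type u} [CommRing W] [CommRing B0] [CommRing B1] [CommRing B01]
  [Algebra W B0] [Algebra W B1] [Algebra W B01] [Algebra B0 B01] [Algebra B1 B01]
  [IsScalarTower W B0 B01] [IsScalarTower W B1 B01]
  (c0 : TwoChart W B0 B1 B01) {A : Type u} [CommRing A] [Algebra W A]

/-- The ideal sheaf of a point (with invertible ideal) is a line. -/
theorem isLine_ptPairIdx (x : PtIdx c0 A) :
    (ofIdeals (c0.baseChange A) (ptPairIdx c0 x)).IsLine := by
  rcases x with q | q
  · exact isLine_ptPair0 c0 q.1 q.2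
  · exact isLine_ptPair1 c0 q.1 q.2

theorem ptCls_eq_mk (x : PtIdx c0 A) :
    ptCls c0 x = LinePic.mk (c0.baseChange A) (ofIdeals (c0.baseChange A) (ptPairIdx c0 x))
      (isLine_ptPairIdx c0 x) := by
  rcases x with q | q <;> rfl

/-- List form. -/
theorem isLine_and_mk_pairProd_ptPairIdx (lx : List (PtIdx c0 A)) :
    ∃ h : (ofIdeals (c0.baseChange A) (pairProd (lx.map (ptPairIdx c0)))).IsLine,
      LinePic.mk (c0.baseChange A) (ofIdeals (c0.baseChange A) (pairProd (lx.map (ptPairIdx c0)))) h
        = (lx.map (ptCls c0)).prod := by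
  induction lx with
  | nil => exact ⟨isLine_ofIdeals_top _, mk_ofIdeals_top _ _⟩
  | cons x t ih =>
    obtain ⟨ht, hmk⟩ := ih
    have hx := isLine_ptPairIdx c0 x
    have hxt : (ofIdeals (c0.baseChange A)
        ((ptPairIdx c0 x).mul (pairProd (t.map (ptPairIdx c0))))).IsLine :=
      Fermat.Agent.T1.Adapt96.isLine_ofIdeals_mul _ _ _ hx ht
    refine ⟨hxt, ?_⟩
    show LinePic.mk (c0.baseChange A) (ofIdeals (c0.baseChange A)
      ((ptPairIdx c0 x).mul (pairProd (t.map (ptPairIdx c0))))) hxt =
        ptCls c0 x * (t.map (ptCls c0)).prod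
    rw [← hmk, ptCls_eq_mk]
    exact Fermat.Agent.T1.Adapt96.mk_ofIdeals_mul _ _ _ hx ht hxt

/-- **(B5)** The class of `O(-D)` for `D` a product of point ideals. -/
theorem mk_ofIdeals_eq_prod (D : IdealPair (A ⊗[W] B0) (A ⊗[W] B1) (A ⊗[W] B01))
    (s : Multiset (PtIdx c0 A))
    (h0 : D.I0 = (s.map fun x => (ptPairIdx c0 x).I0).prod)
    (h1 : D.I1 = (s.map fun x => (ptPairIdx c0 x).I1).prod)
    (hD : (ofIdeals (c0.baseChange A) D).IsLine) :
    LinePic.mk (c0.baseChange A) (ofIdeals (c0.baseChange A) D) hD = (s.map (ptCls c0)).prod := by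
  induction s using Quotient.inductionOn with
  | _ lx =>
    obtain ⟨h, hmk⟩ := isLine_and_mk_pairProd_ptPairIdx c0 lx
    have hDeq : D = pairProd (lx.map (ptPairIdx c0)) := by
      apply AbelJacobi73.idealPair_ext
      · rw [h0, pairProd_I0, List.map_map]; simp [Function.comp_def]
      · rw [h1, pairProd_I1, List.map_map]; simp [Function.comp_def]
    have hc := linePic_mk_congr (c0.baseChange A) (by rw [hDeq]) hD h
    rw [hc, hmk]
    simp

/-- The ideal sheaf of a product of point ideals is a line (no hypothesis on `A`). -/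
theorem isLine_ofIdeals_of_prod (D : IdealPair (A ⊗[W] B0) (A ⊗[W] B1) (A ⊗[W] B01))
    (s : Multiset (PtIdx c0 A))
    (h0 : D.I0 = (s.map fun x => (ptPairIdx c0 x).I0).prod)
    (h1 : D.I1 = (s.map fun x => (ptPairIdx c0 x).I1).prod) :
    (ofIdeals (c0.baseChange A) D).IsLine := by
  induction s using Quotient.inductionOn with
  | _ lx =>
    obtain ⟨h, -⟩ := isLine_and_mk_pairProd_ptPairIdx c0 lx
    have hDeq : D = pairProd (lx.map (ptPairIdx c0)) := by
      apply AbelJacobi73.idealPair_ext
      · rw [h0, pairProd_I0, List.map_map]; simp [Function.comp_def]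
      · rw [h1, pairProd_I1, List.map_map]; simp [Function.comp_def]
    rw [hDeq]; exact h

end Hub

end Fermat.Agent.T1B.Desc43
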