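import Mathlib
import Fermat.Agent.T1.PtLine75

/-!
# T1B, brick Phi4 DESC' (F2, helper43): Nullstellensatz in the hub vocabulary

`Ω` algebraically closed, `W → Ω`, `B` a `W`-algebra of finite type.  Every maximal ideal of
`Ω ⊗[W] B` is the ideal `PtLine75.ptIdeal q` of a unique `Ω`-point `q : B →ₐ[W] Ω`.
-/

set_option autoImplicit false
set_option linter.style.haveILetI false

universe u

open TensorProduct

namespace Fermat.Agent.T1B.Desc43

open Fermat.Agent.T1.PtLine75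

section

variable {W A B : Type u} [CommRing W] [CommRing A] [CommRing B] [Algebra W A] [Algebra W B]

/-- An `A`-algebra homomorphism `A ⊗[W] B → A` is the evaluation at the point it induces. -/
theorem eq_ptEval_of_algHom (φ : A ⊗[W] B →ₐ[A] A) :
    φ = ptEval ((φ.restrictScalars W).comp
      (Algebra.TensorProduct.includeRight : B →ₐ[W] A ⊗[W] B)) := by
  apply Algebra.TensorProduct.ext
  · ext
  · ext b
    simp

/-- The point ideal determines the point. -/
theorem ptIdeal_injective :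
    Function.Injective (ptIdeal : (B →ₐ[W] A) → Ideal (A ⊗[W] B)) := by
  intro q q' h
  ext b
  have h1 := sub_mem_ptIdeal q b
  rw [h, mem_ptIdeal] at h1
  have h3 : q' b - q b = 0 := by simpa using h1
  exact (sub_eq_zero.mp h3).symm

/-- The point ideal of a point with values in a field is maximal. -/
theorem ptIdeal_isMaximal {Ω : Type u} [Field Ω] [Algebra W Ω] (q : B →ₐ[W] Ω) :
    (ptIdeal q).IsMaximal :=
  RingHom.ker_isMaximal_of_surjective _ (ptEval_surjective q)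

end

section Null

variable {W Ω B : Type u} [CommRing W] [Field Ω] [IsAlgClosed Ω] [CommRing B] [Algebra W Ω]
  [Algebra W B] [Algebra.FiniteType W B]

/-- **Nullstellensatz, hub form**: every maximal ideal of `Ω ⊗[W] B` is a point ideal. -/
theorem exists_eq_ptIdeal_of_isMaximal (m : Ideal (Ω ⊗[W] B)) [hm : m.IsMaximal] :
    ∃ q : B →ₐ[W] Ω, m = ptIdeal q := by
  letI : Field ((Ω ⊗[W] B) ⧸ m) := Ideal.Quotient.field m
  haveI : Algebra.FiniteType Ω ((Ω ⊗[W] B) ⧸ m) :=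
    Algebra.FiniteType.of_surjective (Ideal.Quotient.mkₐ Ω m) (Ideal.Quotient.mkₐ_surjective Ω m)
  haveI : Module.Finite Ω ((Ω ⊗[W] B) ⧸ m) :=
    finite_of_finite_type_of_isJacobsonRing Ω ((Ω ⊗[W] B) ⧸ m)
  haveI : Algebra.IsIntegral Ω ((Ω ⊗[W] B) ⧸ m) := Algebra.IsIntegral.of_finite Ω _
  have hbij : Function.Bijective (algebraMap Ω ((Ω ⊗[W] B) ⧸ m)) :=
    IsAlgClosed.algebraMap_bijective_of_isIntegral
  let e : Ω ≃ₐ[Ω] ((Ω ⊗[W] B) ⧸ m) := AlgEquiv.ofBijective (Algebra.ofId Ω _) hbij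
  let φ : Ω ⊗[W] B →ₐ[Ω] Ω := (e.symm : ((Ω ⊗[W] B) ⧸ m) →ₐ[Ω] Ω).comp (Ideal.Quotient.mkₐ Ω m)
  refine ⟨(φ.restrictScalars W).comp Algebra.TensorProduct.includeRight, ?_⟩
  rw [ptIdeal, ← eq_ptEval_of_algHom φ]
  ext x
  rw [RingHom.mem_ker]
  change x ∈ m ↔ e.symm (Ideal.Quotient.mk m x) = 0
  rw [map_eq_zero_iff _ e.symm.injective, Ideal.Quotient.eq_zero_iff_mem]

/-- The maximal ideals of `Ω ⊗[W] B` are exactly the point ideals. -/
theorem isMaximal_iff_exists_ptIdeal (m : Ideal (Ω ⊗[W] B)) :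
    m.IsMaximal ↔ ∃ q : B →ₐ[W] Ω, m = ptIdeal q :=
  ⟨fun _ => exists_eq_ptIdeal_of_isMaximal m, fun ⟨q, hq⟩ => hq ▸ ptIdeal_isMaximal q⟩

/-- The bijection between `Ω`-points and maximal ideals. -/
theorem existsUnique_ptIdeal_of_isMaximal (m : Ideal (Ω ⊗[W] B)) [m.IsMaximal] :
    ∃! q : B →ₐ[W] Ω, m = ptIdeal q := by
  obtain ⟨q, hq⟩ := exists_eq_ptIdeal_of_isMaximal m
  exact ⟨q, hq, fun q' hq' => ptIdeal_injective (hq'.symm.trans hq)⟩

end Null

end Fermat.Agent.T1B.Desc43
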