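import Mathlib
import Fermat.Agent.T1B.Desc43.ProdCls

/-!
# T1B, brick Phi4 DESC' ((B3), (B4), (C), helper43): the finite-level complement

`L' → Ω` fields over `W`.

* `faithfullyFlat_left` : `Ω ⊗[W] B` is faithfully flat over `L' ⊗[W] B`; `ideal_map_left_injective`
  (B3): an ideal of `L' ⊗[W] B` is determined by its extension to `Ω ⊗[W] B`;
* `ptPairIdx_bcIdx_I0/_I1` (B4): the ideals of the base change of a point are the extensions of
  the ideals of the point; multiset product forms;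
* `prod_eq_of_map_eq` / `mk_ofIdeals_eq_of_map_eq` (C): if the extension to `Ω` of a pair `D` over
  `L'` is the product of the base changes of a multiset `s'` of `L'`-points, then `D` is the product
  of `s'`, and `[O(-D)] = ∏ [O(-x)]` already over `L'`.
-/

set_option autoImplicit false
set_option linter.unusedSectionVars false
set_option linter.style.haveILetI false

open TensorProduct

namespace Fermat.Agent.T1B.Desc43

open Fermat.Agent.Jac Fermat.Agent.Jac.LineOps39 Fermat.Agent.Jac.AbelJacobi73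
open Fermat.Agent.Jac.JGroup85Pic
open Fermat.Agent.Jac.BaseChange75 Fermat.Agent.T1.RedIface75
open Fermat.Agent.T1.PtLine75 Fermat.Agent.T1B.Desc1
open scoped Fermat.Agent.Jac.BaseChange75

universe u

section Flat

variable (W L' Ω B : Type u) [CommRing W] [Field L'] [Field Ω] [CommRing B] [Algebra W L']
  [Algebra W Ω] [Algebra W B] [Algebra L' Ω] [IsScalarTower W L' Ω]

/-- `Ω ⊗[W] B` is faithfully flat over `L' ⊗[W] B` for a field extension `L' → Ω`. -/
theorem faithfullyFlat_left : Module.FaithfullyFlat (L' ⊗[W] B) (Ω ⊗[W] B) := by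
  haveI : Algebra.IsPushout L' (L' ⊗[W] B) Ω (Ω ⊗[W] B) :=
    Algebra.IsPushout.symm (isPushout_left W L' Ω B)
  exact Module.FaithfullyFlat.of_linearEquiv (L' ⊗[W] B) ((L' ⊗[W] B) ⊗[L'] Ω)
    (Algebra.IsPushout.equiv L' (L' ⊗[W] B) Ω (Ω ⊗[W] B)).symm.toLinearEquiv

/-- (B3) An ideal of `L' ⊗[W] B` is determined by its extension to `Ω ⊗[W] B`. -/
theorem ideal_map_left_injective :
    Function.Injective (Ideal.map (algebraMap (L' ⊗[W] B) (Ω ⊗[W] B))) := by
  haveI := faithfullyFlat_left W L' Ω B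
  exact Ideal.map_injective_of_faithfullyFlat

end Flat

section Hub

variable {W B0 B1 B01 : Type u} [CommRing W] [CommRing B0] [CommRing B1] [CommRing B01]
  [Algebra W B0] [Algebra W B1] [Algebra W B01] [Algebra B0 B01] [Algebra B1 B01]
  [IsScalarTower W B0 B01] [IsScalarTower W B1 B01]
  (c0 : TwoChart W B0 B1 B01)

section BC

variable {A : Type u} [CommRing A] [Algebra W A]
  (A' : Type u) [CommRing A'] [Algebra W A'] [Algebra A A'] [IsScalarTower W A A']

/-- (B4), chart 0 ideals. -/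
theorem ptPairIdx_bcIdx_I0 (x : PtIdx c0 A) :
    (ptPairIdx c0 (bcIdx c0 A' x)).I0 =
      ((ptPairIdx c0 x).I0).map (algebraMap (A ⊗[W] B0) (A' ⊗[W] B0)) := by
  rcases x with q | q
  · exact (ptPair0_isBC c0 A' q.1).h0
  · exact (ptPair1_isBC c0 A' q.1).h0

/-- (B4), chart 1 ideals. -/
theorem ptPairIdx_bcIdx_I1 (x : PtIdx c0 A) :
    (ptPairIdx c0 (bcIdx c0 A' x)).I1 =
      ((ptPairIdx c0 x).I1).map (algebraMap (A ⊗[W] B1) (A' ⊗[W] B1)) := by
  rcases x with q | q
  · exact (ptPair0_isBC c0 A' q.1).h1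
  · exact (ptPair1_isBC c0 A' q.1).h1

/-- (B4), multiset product form, chart 0. -/
theorem prod_bcIdx_I0 (s : Multiset (PtIdx c0 A)) :
    ((s.map (bcIdx c0 A')).map fun x => (ptPairIdx c0 x).I0).prod =
      ((s.map fun x => (ptPairIdx c0 x).I0).prod).map (algebraMap (A ⊗[W] B0) (A' ⊗[W] B0)) := by
  have hm : Ideal.map (algebraMap (A ⊗[W] B0) (A' ⊗[W] B0))
      (s.map fun x => (ptPairIdx c0 x).I0).prod =
      ((s.map fun x => (ptPairIdx c0 x).I0).map
        (Ideal.map (algebraMap (A ⊗[W] B0) (A' ⊗[W] B0)))).prod :=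
    map_multiset_prod (Ideal.mapHom (algebraMap (A ⊗[W] B0) (A' ⊗[W] B0))) _
  rw [hm, Multiset.map_map, Multiset.map_map]
  apply congrArg
  apply Multiset.map_congr rfl
  intro x _
  exact ptPairIdx_bcIdx_I0 c0 A' x

/-- (B4), multiset product form, chart 1. -/
theorem prod_bcIdx_I1 (s : Multiset (PtIdx c0 A)) :
    ((s.map (bcIdx c0 A')).map fun x => (ptPairIdx c0 x).I1).prod =
      ((s.map fun x => (ptPairIdx c0 x).I1).prod).map (algebraMap (A ⊗[W] B1) (A' ⊗[W] B1)) := by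
  have hm : Ideal.map (algebraMap (A ⊗[W] B1) (A' ⊗[W] B1))
      (s.map fun x => (ptPairIdx c0 x).I1).prod =
      ((s.map fun x => (ptPairIdx c0 x).I1).map
        (Ideal.map (algebraMap (A ⊗[W] B1) (A' ⊗[W] B1)))).prod :=
    map_multiset_prod (Ideal.mapHom (algebraMap (A ⊗[W] B1) (A' ⊗[W] B1))) _
  rw [hm, Multiset.map_map, Multiset.map_map]
  apply congrArg
  apply Multiset.map_congr rfl
  intro x _
  exact ptPairIdx_bcIdx_I1 c0 A' x

end BC

section Complement

variable {L' : Type u} [Field L'] [Algebra W L'] (Ω : Type u) [Field Ω] [Algebra W Ω]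
  [Algebra L' Ω] [IsScalarTower W L' Ω]

/-- (C), ideal form: if the extension of `D` to `Ω` is the product of the base changes of the
`L'`-points `s'`, then `D` is the product of `s'`. -/
theorem prod_eq_of_map_eq (D : IdealPair (L' ⊗[W] B0) (L' ⊗[W] B1) (L' ⊗[W] B01))
    (s' : Multiset (PtIdx c0 L'))
    (h0 : (D.I0).map (algebraMap (L' ⊗[W] B0) (Ω ⊗[W] B0)) =
      ((s'.map (bcIdx c0 Ω)).map fun x => (ptPairIdx c0 x).I0).prod)
    (h1 : (D.I1).map (algebraMap (L' ⊗[W] B1) (Ω ⊗[W] B1)) =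
      ((s'.map (bcIdx c0 Ω)).map fun x => (ptPairIdx c0 x).I1).prod) :
    D.I0 = (s'.map fun x => (ptPairIdx c0 x).I0).prod ∧
      D.I1 = (s'.map fun x => (ptPairIdx c0 x).I1).prod := by
  constructor
  · apply ideal_map_left_injective W L' Ω B0
    rw [h0, prod_bcIdx_I0]
  · apply ideal_map_left_injective W L' Ω B1
    rw [h1, prod_bcIdx_I1]

/-- (C), class form: then `[O(-D)] = ∏_{x ∈ s'} [O(-x)]` in `Pic X_{L'}`. -/
theorem mk_ofIdeals_eq_of_map_eq (D : IdealPair (L' ⊗[W] B0) (L' ⊗[W] B1) (L' ⊗[W] B01))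
    (s' : Multiset (PtIdx c0 L'))
    (h0 : (D.I0).map (algebraMap (L' ⊗[W] B0) (Ω ⊗[W] B0)) =
      ((s'.map (bcIdx c0 Ω)).map fun x => (ptPairIdx c0 x).I0).prod)
    (h1 : (D.I1).map (algebraMap (L' ⊗[W] B1) (Ω ⊗[W] B1)) =
      ((s'.map (bcIdx c0 Ω)).map fun x => (ptPairIdx c0 x).I1).prod)
    (hD : (ofIdeals (c0.baseChange L') D).IsLine) :
    LinePic.mk (c0.baseChange L') (ofIdeals (c0.baseChange L') D) hD =
      (s'.map (ptCls c0)).prod := by
  obtain ⟨e0, e1⟩ := prod_eq_of_map_eq c0 Ω D s' h0 h1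
  exact mk_ofIdeals_eq_prod c0 D s' e0 e1 hD

end Complement

end Hub

end Fermat.Agent.T1B.Desc43
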