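import Mathlib
import Fermat.Agent.T1B.Desc43.Unique

/-!
# T1B, brick Phi4 DESC' (helper43): automorphisms of the chart system permute the points

Abstract form (no hub vocabulary): `c : TwoChart A R0 R1 R01`, a triple of ring homomorphisms
`g0 : R0 →+* R0`, `g1 : R1 →+* R1`, `g01 : R01 →+* R01` compatible with the restriction maps, `g0`,
`g1` bijective.

* `IdealPair.mapTriple` : the image ideal pair;
* `mapTriple_ofChart0/1` : the image of the closure of a point is the closure of the image point;
* `isPointPair_mapTriple` : point pairs go to point pairs;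
* `mapTriple_pairProd` : compatible with products;
* `perm_map_of_pairProd_eq` : if `D = pairProd l` and `g D = pairProd l'` are factorisations into
  point pairs over Dedekind charts then `l' ~ l.map g`.
-/

set_option autoImplicit false
set_option linter.unusedSectionVars false
set_option linter.style.haveILetI false

universe u

namespace Fermat.Agent.T1B.Desc43

open Fermat.Agent.Jac Fermat.Agent.Jac.LineOps39 Fermat.Agent.Jac.AbelJacobi73

variable {A R0 R1 R01 : Type u} [CommRing A] [CommRing R0] [CommRing R1] [CommRing R01]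
  [Algebra A R0] [Algebra A R1] [Algebra A R01] [Algebra R0 R01] [Algebra R1 R01]
  [IsScalarTower A R0 R01] [IsScalarTower A R1 R01]

/-- A triple of ring endomorphisms of the charts compatible with restriction. -/
structure ChartTriple (R0 R1 R01 : Type u) [CommRing R0] [CommRing R1] [CommRing R01]
    [Algebra R0 R01] [Algebra R1 R01] where
  g0 : R0 →+* R0
  g1 : R1 →+* R1
  g01 : R01 →+* R01
  comm0 : (algebraMap R0 R01).comp g0 = g01.comp (algebraMap R0 R01)
  comm1 : (algebraMap R1 R01).comp g1 = g01.comp (algebraMap R1 R01)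

namespace ChartTriple

variable (g : ChartTriple R0 R1 R01)

/-- The image of an ideal pair. -/
def mapPair (D : IdealPair R0 R1 R01) : IdealPair R0 R1 R01 where
  I0 := D.I0.map g.g0
  I1 := D.I1.map g.g1
  compat := by
    rw [Ideal.map_map, Ideal.map_map, g.comm0, g.comm1, ← Ideal.map_map, ← Ideal.map_map,
      D.compat]

@[simp] theorem mapPair_I0 (D : IdealPair R0 R1 R01) : (g.mapPair D).I0 = D.I0.map g.g0 := rfl
@[simp] theorem mapPair_I1 (D : IdealPair R0 R1 R01) : (g.mapPair D).I1 = D.I1.map g.g1 := rfl

theorem mapPair_top : g.mapPair (IdealPair.top : IdealPair R0 R1 R01) = IdealPair.top :=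
  idealPair_ext (by simp [Ideal.map_top]) (by simp [Ideal.map_top])

theorem mapPair_mul (D E : IdealPair R0 R1 R01) :
    g.mapPair (D.mul E) = (g.mapPair D).mul (g.mapPair E) :=
  idealPair_ext (by simp [Ideal.map_mul]) (by simp [Ideal.map_mul])

theorem mapPair_pairProd (l : List (IdealPair R0 R1 R01)) :
    g.mapPair (pairProd l) = pairProd (l.map g.mapPair) := by
  induction l with
  | nil => simpa using g.mapPair_top
  | cons P t ih => rw [pairProd_cons, mapPair_mul, ih, List.map_cons, pairProd_cons]

end ChartTriple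

/-! ### Bijective triples -/

section Bij

variable (c : TwoChart A R0 R1 R01) (g : ChartTriple R0 R1 R01)
  (h0 : Function.Bijective g.g0) (h1 : Function.Bijective g.g1)
  (h01 : Function.Bijective g.g01)

/-- `comap` then `map` along compatible bijections. -/
theorem map_comap_of_bijective {R S : Type*} [CommRing R] [CommRing S] [Algebra R S]
    (gR : R →+* R) (gS : S →+* S) (hcomm : (algebraMap R S).comp gR = gS.comp (algebraMap R S))
    (hR : Function.Bijective gR) (hS : Function.Bijective gS) (J : Ideal S) :
    (J.comap (algebraMap R S)).map gR = (J.map gS).comap (algebraMap R S) := by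
  ext x
  obtain ⟨y, rfl⟩ := hR.2 x
  have hx : algebraMap R S (gR y) = gS (algebraMap R S y) := by
    have := congrArg (fun φ : R →+* S => φ y) hcomm
    simpa using this
  constructor
  · intro hy
    rw [Ideal.mem_comap, hx]
    apply Ideal.mem_map_of_mem
    obtain ⟨z, hz, hze⟩ := (Ideal.mem_map_iff_of_surjective gR hR.2).1 hy
    have : z = y := hR.1 hze
    rw [← this]
    exact hz
  · intro hy
    rw [Ideal.mem_comap, hx] at hy
    obtain ⟨z, hz, hze⟩ := (Ideal.mem_map_iff_of_surjective gS hS.2).1 hy
    have : z = algebraMap R S y := hS.1 hze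
    rw [this] at hz
    exact Ideal.mem_map_of_mem gR (Ideal.mem_comap.2 hz)

include h1 h01 in
theorem mapPair_ofChart0 (m : Ideal R0) :
    g.mapPair (IdealPair.ofChart0 c m) = IdealPair.ofChart0 c (m.map g.g0) := by
  refine idealPair_ext rfl ?_
  change ((m.map (algebraMap R0 R01)).comap (algebraMap R1 R01)).map g.g1 =
    ((m.map g.g0).map (algebraMap R0 R01)).comap (algebraMap R1 R01)
  rw [map_comap_of_bijective g.g1 g.g01 g.comm1 h1 h01, Ideal.map_map, Ideal.map_map, g.comm0]

include h0 h01 in
theorem mapPair_ofChart1 (m : Ideal R1) :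
    g.mapPair (IdealPair.ofChart1 c m) = IdealPair.ofChart1 c (m.map g.g1) := by
  refine idealPair_ext ?_ rfl
  change ((m.map (algebraMap R1 R01)).comap (algebraMap R0 R01)).map g.g0 =
    ((m.map g.g1).map (algebraMap R1 R01)).comap (algebraMap R0 R01)
  rw [map_comap_of_bijective g.g0 g.g01 g.comm0 h0 h01, Ideal.map_map, Ideal.map_map, g.comm1]

theorem isMaximal_map_of_bijective {R : Type*} [CommRing R] (gR : R →+* R)
    (hR : Function.Bijective gR) (m : Ideal R) (hm : m.IsMaximal) : (m.map gR).IsMaximal := by
  let e : R ≃+* R := RingEquiv.ofBijective gR hR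
  haveI := hm
  exact Ideal.map_isMaximal_of_equiv (p := m) e

include h0 h1 h01 in
/-- Point pairs go to point pairs. -/
theorem isPointPair_mapPair {P : IdealPair R0 R1 R01} (hP : IsPointPair c P) :
    IsPointPair c (g.mapPair P) := by
  rcases hP with ⟨m, hm, rfl⟩ | ⟨m, hm, rfl⟩
  · exact Or.inl ⟨m.map g.g0, isMaximal_map_of_bijective g.g0 h0 m hm,
      mapPair_ofChart0 c g h1 h01 m⟩
  · exact Or.inr ⟨m.map g.g1, isMaximal_map_of_bijective g.g1 h1 m hm,
      mapPair_ofChart1 c g h0 h01 m⟩

variable [IsDedekindDomain R0] [IsDedekindDomain R1] [IsDomain R01]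

include h0 h1 h01 in
/-- **Automorphisms permute the points of a divisor**: if `D = pairProd l` and
`g D = pairProd l'` are factorisations into point pairs then `l'` is a permutation of `g l`. -/
theorem perm_map_of_pairProd_eq (l l' : List (IdealPair R0 R1 R01))
    (hl : ∀ P ∈ l, IsPointPair c P) (hl' : ∀ P ∈ l', IsPointPair c P)
    (hne0 : (pairProd l').I0 ≠ ⊥) (hne1 : (pairProd l').I1 ≠ ⊥)
    (h : g.mapPair (pairProd l) = pairProd l') : l'.Perm (l.map g.mapPair) := by
  apply perm_of_pairProd_eq c l' (l.map g.mapPair) hl' ?_ hne0 hne1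
  · rw [← h, g.mapPair_pairProd]
  · intro P hP
    obtain ⟨Q, hQ, rfl⟩ := List.mem_map.1 hP
    exact isPointPair_mapPair c g h0 h1 h01 (hl Q hQ)

end Bij

end Fermat.Agent.T1B.Desc43
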