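import Mathlib
import Fermat.Agent.T1B.Desc1.Iface
import Fermat.Agent.T1B.Desc43.Null
import Fermat.Agent.T1B.Desc43.Equivar

/-!
# T1B, brick Phi4 DESC' (helper43): Galois permutes the points of a divisor, hub form

Hub vocabulary of `T1B/Desc1/Iface.lean` (`PtIdx`, `ptPairIdx`, `twistIdx`, `idealPairGal`).

* `hubTriple c0 γ` : the chart triple `γ ⊗ id`; `idealPairGal_eq_mapPair`;
* `idealPairGal_ptPairIdx` : `γ (pair of x) = pair of (γ ∘ x)`;
* `IsCanon` : a point is listed in chart 1 only if it does not lie in chart 0 (`q s = 0`);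
  `ptPairIdx_injOn_canon`, `isCanon_twistIdx`;
* `map_twistIdx_eq_of_prod_eq` : **(P2) from uniqueness**: if `s`, `s'` are canonical multisets
  of points with `D = ∏ s` and `γ D = ∏ s'` (products of ideals on both charts) then
  `s.map (twistIdx γ) = s'`.
-/

set_option autoImplicit false
set_option linter.unusedSectionVars false
set_option linter.style.haveILetI false

open TensorProduct

namespace Fermat.Agent.T1B.Desc43

open Fermat.Agent.Jac Fermat.Agent.Jac.LineOps39 Fermat.Agent.Jac.AbelJacobi73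
open Fermat.Agent.Jac.BaseChange75 Fermat.Agent.T1.RedIface75
open Fermat.Agent.T1.PtLine75 Fermat.Agent.T1.GalAct44 Fermat.Agent.T1B.Desc1
open scoped Fermat.Agent.Jac.BaseChange75

universe u

variable {W B0 B1 B01 : Type u} [CommRing W] [CommRing B0] [CommRing B1] [CommRing B01]
  [Algebra W B0] [Algebra W B1] [Algebra W B01] [Algebra B0 B01] [Algebra B1 B01]
  [IsScalarTower W B0 B01] [IsScalarTower W B1 B01]
  (c0 : TwoChart W B0 B1 B01) {Ω : Type u} [Field Ω] [Algebra W Ω]

/-- The chart triple `γ ⊗ id`. -/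
noncomputable def hubTriple (γ : Ω ≃ₐ[W] Ω) :
    ChartTriple (Ω ⊗[W] B0) (Ω ⊗[W] B1) (Ω ⊗[W] B01) where
  g0 := galTensorHom γ B0
  g1 := galTensorHom γ B1
  g01 := galTensorHom γ B01
  comm0 := RingHom.ext fun x => (galTensorHom_algebraMap0 c0 γ x).symm
  comm1 := RingHom.ext fun x => (galTensorHom_algebraMap1 c0 γ x).symm

theorem galTensorHom_bijective (γ : Ω ≃ₐ[W] Ω) (B : Type u) [CommRing B] [Algebra W B] :
    Function.Bijective (galTensorHom γ B) :=
  (galTensor γ B).bijective

theorem idealPairGal_eq_mapPair (γ : Ω ≃ₐ[W] Ω)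
    (D : IdealPair (Ω ⊗[W] B0) (Ω ⊗[W] B1) (Ω ⊗[W] B01)) :
    idealPairGal c0 γ D = (hubTriple c0 γ).mapPair D := rfl

/-- The image of the ideal of a point under `γ ⊗ id` is the ideal of the conjugate point. -/
theorem ptIdeal_map_galTensorHom {B : Type u} [CommRing B] [Algebra W B] (γ : Ω ≃ₐ[W] Ω)
    (q q' : B →ₐ[W] Ω) (hq : ∀ b, q' b = γ (q b)) :
    (ptIdeal q).map (galTensorHom γ B) = ptIdeal q' :=
  ptIdeal_map_semi (RingHom.id W) (γ : Ω →+* Ω) (RingHom.id B) (fun w a => map_smul γ w a)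
    (fun _ _ => rfl) Function.surjective_id q q' hq

/-- **`γ` maps the pair of a point to the pair of the conjugate point.** -/
theorem idealPairGal_ptPairIdx (γ : Ω ≃ₐ[W] Ω) (x : PtIdx c0 Ω) :
    idealPairGal c0 γ (ptPairIdx c0 x) = ptPairIdx c0 (twistIdx c0 γ x) := by
  rw [idealPairGal_eq_mapPair]
  rcases x with q | q
  · change (hubTriple c0 γ).mapPair (IdealPair.ofChart0 (c0.baseChange Ω) (ptIdeal q.1)) =
      IdealPair.ofChart0 (c0.baseChange Ω) (ptIdeal _)
    rw [mapPair_ofChart0 (c0.baseChange Ω) (hubTriple c0 γ) (galTensorHom_bijective γ B1)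
      (galTensorHom_bijective γ B01)]
    congr 1
    exact ptIdeal_map_galTensorHom γ q.1 _ (fun b => rfl)
  · change (hubTriple c0 γ).mapPair (IdealPair.ofChart1 (c0.baseChange Ω) (ptIdeal q.1)) =
      IdealPair.ofChart1 (c0.baseChange Ω) (ptIdeal _)
    rw [mapPair_ofChart1 (c0.baseChange Ω) (hubTriple c0 γ) (galTensorHom_bijective γ B0)
      (galTensorHom_bijective γ B01)]
    congr 1
    exact ptIdeal_map_galTensorHom γ q.1 _ (fun b => rfl)

/-- The pair of a point is a point pair. -/
theorem isPointPair_ptPairIdx (x : PtIdx c0 Ω) :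
    IsPointPair (c0.baseChange Ω) (ptPairIdx c0 x) := by
  rcases x with q | q
  · exact Or.inl ⟨ptIdeal q.1, ptIdeal_isMaximal q.1, rfl⟩
  · exact Or.inr ⟨ptIdeal q.1, ptIdeal_isMaximal q.1, rfl⟩

/-! ### Canonical form -/

/-- A point is in canonical form if it is listed in chart 1 only when it does not lie in chart 0
(`q s = 0`). -/
def IsCanon : PtIdx c0 Ω → Prop
  | Sum.inl _ => True
  | Sum.inr q => q.1 c0.s = 0

theorem isCanon_twistIdx (γ : Ω ≃ₐ[W] Ω) {x : PtIdx c0 Ω} (hx : IsCanon c0 x) :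
    IsCanon c0 (twistIdx c0 γ x) := by
  rcases x with q | q
  · trivial
  · change γ (q.1 c0.s) = 0
    have h : q.1 c0.s = 0 := hx
    rw [h, map_zero]

/-- For a canonical chart-1 point the chart-0 ideal is the unit ideal. -/
theorem ptPair1_I0_eq_top_of_canon
    (q : B1 →ₐ[W] Ω) (hq : q c0.s = 0) : (ptPair1 c0 q).I0 = ⊤ := by
  have h := unit_mod_ptPair1 c0 q
  rw [hq, map_zero, zero_mul, zero_sub] at h
  rw [Ideal.eq_top_iff_one]
  simpa using (ptPair1 c0 q).I0.neg_mem h

/-- `ptPairIdx` is injective on canonical points. -/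
theorem ptPairIdx_injOn_canon {x y : PtIdx c0 Ω} (hx : IsCanon c0 x) (hy : IsCanon c0 y)
    (h : ptPairIdx c0 x = ptPairIdx c0 y) : x = y := by
  rcases x with q | q <;> rcases y with q' | q'
  · have h0 : ptIdeal q.1 = ptIdeal q'.1 := congrArg IdealPair.I0 h
    exact congrArg Sum.inl (Subtype.ext (ptIdeal_injective h0))
  · exfalso
    have h0 : ptIdeal q.1 = (ptPair1 c0 q'.1).I0 := congrArg IdealPair.I0 h
    rw [ptPair1_I0_eq_top_of_canon c0 q'.1 hy] at h0
    exact (ptIdeal_isMaximal q.1).ne_top h0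
  · exfalso
    have h0 : (ptPair1 c0 q.1).I0 = ptIdeal q'.1 := congrArg IdealPair.I0 h
    rw [ptPair1_I0_eq_top_of_canon c0 q.1 hx] at h0
    exact (ptIdeal_isMaximal q'.1).ne_top h0.symm
  · have h1 : ptIdeal q.1 = ptIdeal q'.1 := congrArg IdealPair.I1 h
    exact congrArg Sum.inr (Subtype.ext (ptIdeal_injective h1))

/-! ### (P2) from uniqueness -/

/-- The ideal pair which is the product of the pairs of a multiset of points. -/
theorem exists_pairProd_eq (s : Multiset (PtIdx c0 Ω)) :
    ∃ l : List (PtIdx c0 Ω), (l : Multiset (PtIdx c0 Ω)) = s ∧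
      (pairProd (l.map (ptPairIdx c0))).I0 = (s.map fun x => (ptPairIdx c0 x).I0).prod ∧
      (pairProd (l.map (ptPairIdx c0))).I1 = (s.map fun x => (ptPairIdx c0 x).I1).prod := by
  induction s using Quotient.inductionOn with
  | _ l =>
    refine ⟨l, rfl, ?_, ?_⟩
    · rw [pairProd_I0, List.map_map]; simp [Function.comp_def]
    · rw [pairProd_I1, List.map_map]; simp [Function.comp_def]

variable [IsDedekindDomain (Ω ⊗[W] B0)] [IsDedekindDomain (Ω ⊗[W] B1)] [IsDomain (Ω ⊗[W] B01)]

/-- **Uniqueness of the canonical multiset of points of a divisor.** -/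
theorem eq_of_prod_eq (s s' : Multiset (PtIdx c0 Ω))
    (hs : ∀ x ∈ s, IsCanon c0 x) (hs' : ∀ x ∈ s', IsCanon c0 x)
    (h0 : (s.map fun x => (ptPairIdx c0 x).I0).prod = (s'.map fun x => (ptPairIdx c0 x).I0).prod)
    (h1 : (s.map fun x => (ptPairIdx c0 x).I1).prod = (s'.map fun x => (ptPairIdx c0 x).I1).prod)
    (hne0 : (s.map fun x => (ptPairIdx c0 x).I0).prod ≠ ⊥)
    (hne1 : (s.map fun x => (ptPairIdx c0 x).I1).prod ≠ ⊥) : s = s' := by
  classical
  obtain ⟨l, rfl, hl0, hl1⟩ := exists_pairProd_eq c0 s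
  obtain ⟨l', rfl, hl0', hl1'⟩ := exists_pairProd_eq c0 s'
  have hperm : (l.map (ptPairIdx c0)).Perm (l'.map (ptPairIdx c0)) := by
    apply perm_of_pairProd_eq (c0.baseChange Ω)
    · intro P hP
      obtain ⟨x, -, rfl⟩ := List.mem_map.1 hP
      exact isPointPair_ptPairIdx c0 x
    · intro P hP
      obtain ⟨x, -, rfl⟩ := List.mem_map.1 hP
      exact isPointPair_ptPairIdx c0 x
    · rw [hl0]; exact hne0
    · rw [hl1]; exact hne1
    · exact AbelJacobi73.idealPair_ext (by rw [hl0, hl0', h0]) (by rw [hl1, hl1', h1])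
  -- injectivity on canonical points
  have hcount : ∀ x : PtIdx c0 Ω, IsCanon c0 x → l.count x = l'.count x := by
    intro x hx
    have e1 : l.count x = (l.map (ptPairIdx c0)).count (ptPairIdx c0 x) := by
      rw [List.count_eq_countP, List.count_eq_countP, List.countP_map]
      apply List.countP_congr
      intro y hy
      simp only [Function.comp_apply, beq_iff_eq]
      constructor
      · rintro rfl; rfl
      · intro h
        exact ptPairIdx_injOn_canon c0 (hs y (by simpa using hy)) hx h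
    have e2 : l'.count x = (l'.map (ptPairIdx c0)).count (ptPairIdx c0 x) := by
      rw [List.count_eq_countP, List.count_eq_countP, List.countP_map]
      apply List.countP_congr
      intro y hy
      simp only [Function.comp_apply, beq_iff_eq]
      constructor
      · rintro rfl; rfl
      · intro h
        exact ptPairIdx_injOn_canon c0 (hs' y (by simpa using hy)) hx h
    rw [e1, e2, hperm.count_eq]
  apply Multiset.coe_eq_coe.2
  rw [List.perm_iff_count]
  intro x
  by_cases hx : IsCanon c0 x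
  · exact hcount x hx
  · have h1 : x ∉ l := fun h => hx (hs x (by simpa using h))
    have h2 : x ∉ l' := fun h => hx (hs' x (by simpa using h))
    rw [List.count_eq_zero_of_not_mem h1, List.count_eq_zero_of_not_mem h2]

/-- **(P2) from uniqueness.**  If `s` and `s'` are canonical multisets of points with
`D = ∏ s` and `γ D = ∏ s'` (as products of ideals on both charts), `D` with nonzero ideals, then
`s' = s.map (twistIdx γ)`. -/
theorem map_twistIdx_eq_of_prod_eq (γ : Ω ≃ₐ[W] Ω)
    (D : IdealPair (Ω ⊗[W] B0) (Ω ⊗[W] B1) (Ω ⊗[W] B01)) (s s' : Multiset (PtIdx c0 Ω))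
    (hs : ∀ x ∈ s, IsCanon c0 x) (hs' : ∀ x ∈ s', IsCanon c0 x)
    (hD0 : D.I0 = (s.map fun x => (ptPairIdx c0 x).I0).prod)
    (hD1 : D.I1 = (s.map fun x => (ptPairIdx c0 x).I1).prod)
    (hD0' : (idealPairGal c0 γ D).I0 = (s'.map fun x => (ptPairIdx c0 x).I0).prod)
    (hD1' : (idealPairGal c0 γ D).I1 = (s'.map fun x => (ptPairIdx c0 x).I1).prod)
    (hne0 : D.I0 ≠ ⊥) (hne1 : D.I1 ≠ ⊥) : s.map (twistIdx c0 γ) = s' := by
  have key0 : ((s.map (twistIdx c0 γ)).map fun x => (ptPairIdx c0 x).I0).prod =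
      (idealPairGal c0 γ D).I0 := by
    rw [idealPairGal_I0, hD0, Multiset.map_map]
    have hm : Ideal.map (galTensorHom γ B0) (s.map fun x => (ptPairIdx c0 x).I0).prod =
        ((s.map fun x => (ptPairIdx c0 x).I0).map (Ideal.map (galTensorHom γ B0))).prod :=
      map_multiset_prod (Ideal.mapHom (galTensorHom γ B0)) _
    rw [hm, Multiset.map_map]
    apply congrArg
    apply Multiset.map_congr rfl
    intro x _
    simp only [Function.comp_apply]
    rw [← idealPairGal_ptPairIdx]
    rfl
  have key1 : ((s.map (twistIdx c0 γ)).map fun x => (ptPairIdx c0 x).I1).prod =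
      (idealPairGal c0 γ D).I1 := by
    rw [idealPairGal_I1, hD1, Multiset.map_map]
    have hm : Ideal.map (galTensorHom γ B1) (s.map fun x => (ptPairIdx c0 x).I1).prod =
        ((s.map fun x => (ptPairIdx c0 x).I1).map (Ideal.map (galTensorHom γ B1))).prod :=
      map_multiset_prod (Ideal.mapHom (galTensorHom γ B1)) _
    rw [hm, Multiset.map_map]
    apply congrArg
    apply Multiset.map_congr rfl
    intro x _
    simp only [Function.comp_apply]
    rw [← idealPairGal_ptPairIdx]
    rfl
  have hinj0 : Function.Injective (galTensorHom γ B0) := (galTensorHom_bijective γ B0).1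
  have hinj1 : Function.Injective (galTensorHom γ B1) := (galTensorHom_bijective γ B1).1
  apply eq_of_prod_eq c0
  · intro x hx
    obtain ⟨y, hy, rfl⟩ := Multiset.mem_map.1 hx
    exact isCanon_twistIdx c0 γ (hs y hy)
  · exact hs'
  · rw [key0, hD0']
  · rw [key1, hD1']
  · rw [key0, idealPairGal_I0]
    rwa [Ne, Ideal.map_eq_bot_iff_of_injective hinj0]
  · rw [key1, idealPairGal_I1]
    rwa [Ne, Ideal.map_eq_bot_iff_of_injective hinj1]

end Fermat.Agent.T1B.Desc43
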