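import Mathlib
import Fermat.Agent.T1B.Desc43.HubPoints
import Fermat.Agent.Jac.CurveBaseChange98Point

/-!
# T1B, brick Phi4 DESC' (helper43): the canonical multiset of points of a divisor over `Ω`

`Ω` algebraically closed, `B0`, `B1` of finite type over `W`, Dedekind charts over `Ω`.

* `exists_canon_multiset` : every ideal pair with nonzero ideals is the product of the pairs of a
  canonical multiset of `Ω`-points;
* `ptsOf D` : that multiset (unique by `eq_of_prod_eq`), `ptsOf_canon`, `ptsOf_I0`, `ptsOf_I1` (P1),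
  `ptsOf_idealPairGal` (P2) : `ptsOf (γ D) = (ptsOf D).map (twistIdx γ)`.
-/

set_option autoImplicit false
set_option linter.unusedSectionVars false
set_option linter.style.haveILetI false

open TensorProduct

namespace Fermat.Agent.T1B.Desc43

open Fermat.Agent.Jac Fermat.Agent.Jac.LineOps39 Fermat.Agent.Jac.AbelJacobi73
open Fermat.Agent.Jac.BaseChange75 Fermat.Agent.T1.RedIface75
open Fermat.Agent.T1.PtLine75 Fermat.Agent.T1.GalAct44 Fermat.Agent.T1B.Desc1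
open scoped Fermat.Agent.Jac.BaseChange75

universe u

variable {W B0 B1 B01 : Type u} [CommRing W] [CommRing B0] [CommRing B1] [CommRing B01]
  [Algebra W B0] [Algebra W B1] [Algebra W B01] [Algebra B0 B01] [Algebra B1 B01]
  [IsScalarTower W B0 B01] [IsScalarTower W B1 B01]
  (c0 : TwoChart W B0 B1 B01) {Ω : Type u} [Field Ω] [Algebra W Ω]

/-- A chart-1 point whose closure misses chart 0 has `q s = 0`. -/
theorem eq_zero_of_ptPair1_I0_eq_top (q : B1 →ₐ[W] Ω) (h : (ptPair1 c0 q).I0 = ⊤) :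
    q c0.s = 0 := by
  haveI := (c0.baseChange Ω).away1
  have hmap : (ptIdeal q).map (algebraMap (Ω ⊗[W] B1) (Ω ⊗[W] B01)) = ⊤ := by
    have h1 : (1 : Ω ⊗[W] B0) ∈ (ptPair1 c0 q).I0 := by rw [h]; trivial
    change (1 : Ω ⊗[W] B0) ∈ ((ptIdeal q).map (algebraMap (Ω ⊗[W] B1) (Ω ⊗[W] B01))).comap
      (algebraMap (Ω ⊗[W] B0) (Ω ⊗[W] B01)) at h1
    rw [Ideal.mem_comap, map_one] at h1
    exact (Ideal.eq_top_iff_one _).2 h1
  have hnd : ¬ Disjoint (Submonoid.powers (c0.baseChange Ω).s : Set (Ω ⊗[W] B1))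
      (ptIdeal q : Set (Ω ⊗[W] B1)) := by
    intro hd
    exact (IsLocalization.map_algebraMap_ne_top_iff_disjoint
      (Submonoid.powers (c0.baseChange Ω).s) (Ω ⊗[W] B01) (ptIdeal q)).2 hd hmap
  rw [Set.not_disjoint_iff] at hnd
  obtain ⟨y, ⟨k, rfl⟩, hy⟩ := hnd
  have hy' : ptEval q ((c0.baseChange Ω).s ^ k) = 0 := (mem_ptIdeal q _).1 hy
  rw [map_pow, baseChange_s, ptEval_tmul, one_mul] at hy'
  exact pow_eq_zero_iff (M₀ := Ω) (n := k) (by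
    rintro rfl
    simp at hy') |>.1 hy'

variable [IsAlgClosed Ω] [Algebra.FiniteType W B0] [Algebra.FiniteType W B1]
  [IsDedekindDomain (Ω ⊗[W] B0)] [IsDedekindDomain (Ω ⊗[W] B1)] [IsDomain (Ω ⊗[W] B01)]

/-- Every point pair (with nonzero ideals) is the pair of a canonical `Ω`-point. -/
theorem exists_canon_of_isPointPair {P : IdealPair (Ω ⊗[W] B0) (Ω ⊗[W] B1) (Ω ⊗[W] B01)}
    (hP : IsPointPair (c0.baseChange Ω) P) (h0 : P.I0 ≠ ⊥) (h1 : P.I1 ≠ ⊥) :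
    ∃ x : PtIdx c0 Ω, IsCanon c0 x ∧ ptPairIdx c0 x = P := by
  rcases isPointPair_cases0 (c0.baseChange Ω) hP h0 with ⟨hmax, hPeq⟩ | ⟨htop, hmax, hPeq⟩
  · haveI := hmax
    obtain ⟨q, hq⟩ := exists_eq_ptIdeal_of_isMaximal P.I0
    have hinv : Module.Invertible (Ω ⊗[W] B0) (ptIdeal q) :=
      CurveBaseChange98Point.invertible_of_ne_bot _ (hq ▸ h0)
    refine ⟨Sum.inl ⟨q, hinv⟩, trivial, ?_⟩
    change IdealPair.ofChart0 (c0.baseChange Ω) (ptIdeal q) = P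
    rw [← hq, ← hPeq]
  · haveI := hmax
    obtain ⟨q, hq⟩ := exists_eq_ptIdeal_of_isMaximal P.I1
    have hinv : Module.Invertible (Ω ⊗[W] B1) (ptIdeal q) :=
      CurveBaseChange98Point.invertible_of_ne_bot _ (hq ▸ h1)
    have hPq : ptPair1 c0 q = P := by
      change IdealPair.ofChart1 (c0.baseChange Ω) (ptIdeal q) = P
      rw [← hq, ← hPeq]
    refine ⟨Sum.inr ⟨q, hinv⟩, ?_, hPq⟩
    change q c0.s = 0
    apply eq_zero_of_ptPair1_I0_eq_top c0 q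
    rw [hPq, htop]

/-- A list of point pairs with nonzero ideals lifts to a list of canonical points. -/
theorem exists_canon_list (l : List (IdealPair (Ω ⊗[W] B0) (Ω ⊗[W] B1) (Ω ⊗[W] B01)))
    (hl : ∀ P ∈ l, IsPointPair (c0.baseChange Ω) P ∧ P.I0 ≠ ⊥ ∧ P.I1 ≠ ⊥) :
    ∃ lx : List (PtIdx c0 Ω), (∀ x ∈ lx, IsCanon c0 x) ∧ lx.map (ptPairIdx c0) = l := by
  induction l with
  | nil => exact ⟨[], by simp, rfl⟩
  | cons P t ih =>
    obtain ⟨lx, hlx, hmap⟩ := ih (fun Q hQ => hl Q (List.mem_cons_of_mem _ hQ))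
    obtain ⟨hP, h0, h1⟩ := hl P List.mem_cons_self
    obtain ⟨x, hx, hxP⟩ := exists_canon_of_isPointPair c0 hP h0 h1
    refine ⟨x :: lx, ?_, by rw [List.map_cons, hxP, hmap]⟩
    intro y hy
    rcases List.mem_cons.1 hy with rfl | hy
    · exact hx
    · exact hlx y hy

/-- **Existence of the canonical multiset of points of a divisor.** -/
theorem exists_canon_multiset (D : IdealPair (Ω ⊗[W] B0) (Ω ⊗[W] B1) (Ω ⊗[W] B01))
    (h0 : D.I0 ≠ ⊥) (h1 : D.I1 ≠ ⊥) :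
    ∃ s : Multiset (PtIdx c0 Ω), (∀ x ∈ s, IsCanon c0 x) ∧
      D.I0 = (s.map fun x => (ptPairIdx c0 x).I0).prod ∧
      D.I1 = (s.map fun x => (ptPairIdx c0 x).I1).prod := by
  obtain ⟨l, hl, hD⟩ := exists_pointPair_factorisation (c0.baseChange Ω) D h0 h1
  have hne : ∀ P ∈ l, IsPointPair (c0.baseChange Ω) P ∧ P.I0 ≠ ⊥ ∧ P.I1 ≠ ⊥ := by
    intro P hP
    have := ne_bot_of_mem_of_pairProd_ne_bot (hD ▸ h0) (hD ▸ h1) hP
    exact ⟨hl P hP, this.1, this.2⟩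
  obtain ⟨lx, hlx, hmap⟩ := exists_canon_list c0 l hne
  refine ⟨(lx : Multiset (PtIdx c0 Ω)), fun x hx => hlx x (by simpa using hx), ?_, ?_⟩
  · rw [hD, pairProd_I0, ← hmap, List.map_map]; simp [Function.comp_def]
  · rw [hD, pairProd_I1, ← hmap, List.map_map]; simp [Function.comp_def]

/-! ### `ptsOf` -/

open Classical in
/-- **The canonical multiset of `Ω`-points of an ideal pair** (junk value `0` if one of the ideals
is zero). -/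
noncomputable def ptsOf (D : IdealPair (Ω ⊗[W] B0) (Ω ⊗[W] B1) (Ω ⊗[W] B01)) :
    Multiset (PtIdx c0 Ω) :=
  if h : D.I0 ≠ ⊥ ∧ D.I1 ≠ ⊥ then (exists_canon_multiset c0 D h.1 h.2).choose else 0

theorem ptsOf_spec (D : IdealPair (Ω ⊗[W] B0) (Ω ⊗[W] B1) (Ω ⊗[W] B01))
    (h0 : D.I0 ≠ ⊥) (h1 : D.I1 ≠ ⊥) :
    (∀ x ∈ ptsOf c0 D, IsCanon c0 x) ∧
      D.I0 = ((ptsOf c0 D).map fun x => (ptPairIdx c0 x).I0).prod ∧
      D.I1 = ((ptsOf c0 D).map fun x => (ptPairIdx c0 x).I1).prod := by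
  have h : D.I0 ≠ ⊥ ∧ D.I1 ≠ ⊥ := ⟨h0, h1⟩
  rw [ptsOf, dif_pos h]
  exact (exists_canon_multiset c0 D h.1 h.2).choose_spec

theorem ptsOf_canon (D : IdealPair (Ω ⊗[W] B0) (Ω ⊗[W] B1) (Ω ⊗[W] B01))
    (h0 : D.I0 ≠ ⊥) (h1 : D.I1 ≠ ⊥) : ∀ x ∈ ptsOf c0 D, IsCanon c0 x :=
  (ptsOf_spec c0 D h0 h1).1

/-- (P1), chart 0. -/
theorem ptsOf_I0 (D : IdealPair (Ω ⊗[W] B0) (Ω ⊗[W] B1) (Ω ⊗[W] B01))
    (h0 : D.I0 ≠ ⊥) (h1 : D.I1 ≠ ⊥) :
    D.I0 = ((ptsOf c0 D).map fun x => (ptPairIdx c0 x).I0).prod :=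
  (ptsOf_spec c0 D h0 h1).2.1

/-- (P1), chart 1. -/
theorem ptsOf_I1 (D : IdealPair (Ω ⊗[W] B0) (Ω ⊗[W] B1) (Ω ⊗[W] B01))
    (h0 : D.I0 ≠ ⊥) (h1 : D.I1 ≠ ⊥) :
    D.I1 = ((ptsOf c0 D).map fun x => (ptPairIdx c0 x).I1).prod :=
  (ptsOf_spec c0 D h0 h1).2.2

/-- `ptsOf D` is the unique canonical multiset with product `D`. -/
theorem eq_ptsOf (D : IdealPair (Ω ⊗[W] B0) (Ω ⊗[W] B1) (Ω ⊗[W] B01))
    (h0 : D.I0 ≠ ⊥) (h1 : D.I1 ≠ ⊥) (s : Multiset (PtIdx c0 Ω))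
    (hs : ∀ x ∈ s, IsCanon c0 x)
    (hs0 : D.I0 = (s.map fun x => (ptPairIdx c0 x).I0).prod)
    (hs1 : D.I1 = (s.map fun x => (ptPairIdx c0 x).I1).prod) : s = ptsOf c0 D :=
  eq_of_prod_eq c0 s (ptsOf c0 D) hs (ptsOf_canon c0 D h0 h1)
    (hs0.symm.trans (ptsOf_I0 c0 D h0 h1)) (hs1.symm.trans (ptsOf_I1 c0 D h0 h1))
    (hs0 ▸ h0) (hs1 ▸ h1)

/-- (P2) **Equivariance**: `ptsOf (γ D) = (ptsOf D).map (twistIdx γ)`. -/
theorem ptsOf_idealPairGal (γ : Ω ≃ₐ[W] Ω)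
    (D : IdealPair (Ω ⊗[W] B0) (Ω ⊗[W] B1) (Ω ⊗[W] B01)) (h0 : D.I0 ≠ ⊥) (h1 : D.I1 ≠ ⊥) :
    ptsOf c0 (idealPairGal c0 γ D) = (ptsOf c0 D).map (twistIdx c0 γ) := by
  have hg0 : (idealPairGal c0 γ D).I0 ≠ ⊥ := by
    rw [idealPairGal_I0, Ne, Ideal.map_eq_bot_iff_of_injective (galTensorHom_bijective γ B0).1]
    exact h0
  have hg1 : (idealPairGal c0 γ D).I1 ≠ ⊥ := by
    rw [idealPairGal_I1, Ne, Ideal.map_eq_bot_iff_of_injective (galTensorHom_bijective γ B1).1]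
    exact h1
  exact (map_twistIdx_eq_of_prod_eq c0 γ D (ptsOf c0 D) (ptsOf c0 (idealPairGal c0 γ D))
    (ptsOf_canon c0 D h0 h1) (ptsOf_canon c0 _ hg0 hg1) (ptsOf_I0 c0 D h0 h1)
    (ptsOf_I1 c0 D h0 h1) (ptsOf_I0 c0 _ hg0 hg1) (ptsOf_I1 c0 _ hg0 hg1) h0 h1).symm

/-- A `γ`-stable divisor has a `γ`-stable multiset of points. -/
theorem ptsOf_map_twistIdx_of_stable (γ : Ω ≃ₐ[W] Ω)
    (D : IdealPair (Ω ⊗[W] B0) (Ω ⊗[W] B1) (Ω ⊗[W] B01)) (h0 : D.I0 ≠ ⊥) (h1 : D.I1 ≠ ⊥)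
    (hstab : idealPairGal c0 γ D = D) : (ptsOf c0 D).map (twistIdx c0 γ) = ptsOf c0 D := by
  rw [← ptsOf_idealPairGal c0 γ D h0 h1, hstab]

end Fermat.Agent.T1B.Desc43
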