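/-
Programme T1B (S44 / row 38), NODE/PHI cell, PHI6 brick (B) INTEGRAL MODELS + PARTITION (helper43).

`c0 : TwoChart W B0 B1 B01` the hub datum, `O` a discrete valuation ring over `W`, `L = Frac O`.
Hypotheses `hint0`, `hint1` : the charts are integral over `W[t]`, `W[s]` (as in `T1/Ext23/Surj`).

(B1) `IntModel.OPt c0 O` : the `O`-points of chart 0 or chart 1 (NO invertibility claim over `O`).
  `IntModel.IsModel c0 O L x m` : `m` is the NORMALISED integral model of the `L`-point `x`:
  the geometric point `x` has `t(x) ∈ O` and `m` is the chart-0 `O`-point extending it, or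
  `t(x) ∉ O` (i.e. `s(x) ∈ 𝔪_O`) and `m` is the chart-1 `O`-point extending it.
  `existsUnique_isModel`, `model hint0 hint1 x`, `isModel_model`, `model_eq_of_isModel`,
  `model_inr_s_mem` (chart-1 models have `s ∈ 𝔪_O`), `genIdx` (generic fibre of an `O`-point) and
  **`ptCls_genIdx_model`** : the generic fibre of the model has the same class as `x`;
  `msCls_map_genIdx_model` (multiset form).
(B2) `redIdeal O q̃ = (maximalIdeal O).comap (ptEval q̃)`, maximal, contains `𝔪_O`;
  `one_tmul_mem_redIdeal_iff`; `IsTwoBranch P 𝔫 := ∀ i, P i ≤ 𝔫` (for `P = hg.P0`, `hg.P1` of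
  `RedN3.NodalGood (c0.baseChange O) π ι`) and `not_isTwoBranch_of_s_mem` (hypothesis (M3): all nodes
  lie in `U_01`) : chart-1 models are never node points.
(B3) for a compatible pair `(τL, τO)` of `W`-automorphisms of `L`, `O` :
  `twistO τO` on `OPt`, **`model_twistIdx`** : `model (τL ∘ x) = τO ∘ model x`,
  `map_model_stable` (multiset form), `redIdeal_comp` : `redIdeal (τO ∘ q̃) = redIdeal q̃` when `τO`
  induces the identity on the residue field, `filter_map_stable`, `filter_redIdeal_stable`.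
Deliverable **`exists_models`** : from a multiset `s` of `L`-points, multisets `S0`, `S1` of `O`-points
of chart 0 / chart 1 with `msCls s = ∏ [q̃]_L · ∏ [q̃]_L`, all points of `S1` have `s ∈ 𝔪_O`, and
`S0`, `S1` are stable under `τO ∘ ·` whenever `s` is stable under `τL ∘ ·`.
-/
import Mathlib
import Fermat.Agent.T1.Ext23.Surj
import Fermat.Agent.T1B.Desc8.Effective

set_option autoImplicit false
set_option linter.unusedSectionVars false
set_option linter.style.haveILetI false

open TensorProduct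

namespace Fermat.Agent.T1B.Desc43.IntModel

open Fermat.Agent.Jac Fermat.Agent.Jac.JGroup85Pic Fermat.Agent.Jac.BaseChange75
open Fermat.Agent.T1.RedIface75 Fermat.Agent.T1.PtLine75 Fermat.Agent.T1.Ext23
open Fermat.Agent.T1B.Desc1 Fermat.Agent.T1B.Desc8.Effective
open scoped Fermat.Agent.Jac.BaseChange75

universe u

/-! ### Generalities -/

section General

/-- A fibre of an invariant predicate in a stable multiset is stable. -/
theorem filter_map_stable {α : Type*} (f : α → α) (P : α → Prop) [DecidablePred P]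
    (hP : ∀ a, P (f a) ↔ P a) (S : Multiset α) (hS : S.map f = S) :
    (S.filter P).map f = S.filter P := by
  have h1 : S.filter P = S.filter (P ∘ f) :=
    Multiset.filter_congr fun a _ => (hP a).symm
  calc (S.filter P).map f = (S.filter (P ∘ f)).map f := by rw [h1]
    _ = (S.map f).filter P := (Multiset.filter_map P f S).symm
    _ = S.filter P := by rw [hS]

/-- A product over a multiset of a sum type splits into the two summands. -/
theorem prod_map_sum_split {α β M : Type*} [CommMonoid M] (f : α ⊕ β → M) (S : Multiset (α ⊕ β)) :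
    (S.map f).prod = ((S.filterMap Sum.getLeft?).map fun a => f (Sum.inl a)).prod *
      ((S.filterMap Sum.getRight?).map fun b => f (Sum.inr b)).prod := by
  induction S using Multiset.induction_on with
  | empty => simp
  | cons m S ih =>
    rcases m with a | b
    · rw [Multiset.map_cons, Multiset.prod_cons, ih,
        Multiset.filterMap_cons_some _ _ _ (show Sum.getLeft? (Sum.inl a : α ⊕ β) = some a from rfl),
        Multiset.filterMap_cons_none _ _ (show Sum.getRight? (Sum.inl a : α ⊕ β) = none from rfl),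
        Multiset.map_cons, Multiset.prod_cons, mul_assoc]
    · rw [Multiset.map_cons, Multiset.prod_cons, ih,
        Multiset.filterMap_cons_none _ _ (show Sum.getLeft? (Sum.inr b : α ⊕ β) = none from rfl),
        Multiset.filterMap_cons_some _ _ _ (show Sum.getRight? (Sum.inr b : α ⊕ β) = some b from rfl),
        Multiset.map_cons, Multiset.prod_cons, mul_left_comm]

end General

/-! ### (B2) The reduction ideal of an `O`-point -/

section Red

variable {W : Type u} [CommRing W] (O : Type u) [CommRing O] [IsLocalRing O] [Algebra W O]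
  {B : Type u} [CommRing B] [Algebra W B]

/-- The reduction of the `O`-point `q` : the maximal ideal of `O ⊗[W] B` of the closed point of the
section `q`. -/
noncomputable def redIdeal (q : B →ₐ[W] O) : Ideal (O ⊗[W] B) :=
  (IsLocalRing.maximalIdeal O).comap (ptEval q)

theorem mem_redIdeal (q : B →ₐ[W] O) (x : O ⊗[W] B) :
    x ∈ redIdeal O q ↔ ptEval q x ∈ IsLocalRing.maximalIdeal O := Iff.rfl

theorem redIdeal_isMaximal (q : B →ₐ[W] O) : (redIdeal O q).IsMaximal :=
  Ideal.comap_isMaximal_of_surjective (ptEval q) (ptEval_surjective q)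

theorem ptIdeal_le_redIdeal (q : B →ₐ[W] O) : ptIdeal q ≤ redIdeal O q := fun x hx => by
  rw [mem_redIdeal, (mem_ptIdeal q x).1 hx]
  exact Ideal.zero_mem _

theorem algebraMap_mem_redIdeal (q : B →ₐ[W] O) {a : O} (ha : a ∈ IsLocalRing.maximalIdeal O) :
    algebraMap O (O ⊗[W] B) a ∈ redIdeal O q := by
  rw [mem_redIdeal, AlgHom.commutes]
  exact ha

theorem tmul_one_mem_redIdeal (q : B →ₐ[W] O) {a : O} (ha : a ∈ IsLocalRing.maximalIdeal O) :
    a ⊗ₜ[W] (1 : B) ∈ redIdeal O q := by
  rw [mem_redIdeal, ptEval_tmul, map_one, mul_one]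
  exact ha

theorem one_tmul_mem_redIdeal_iff (q : B →ₐ[W] O) (b : B) :
    (1 : O) ⊗ₜ[W] b ∈ redIdeal O q ↔ q b ∈ IsLocalRing.maximalIdeal O := by
  rw [mem_redIdeal, ptEval_tmul, one_mul]

/-- A `W`-automorphism of `O` preserves the maximal ideal. -/
theorem map_mem_maximalIdeal (τO : O ≃ₐ[W] O) {a : O} (ha : a ∈ IsLocalRing.maximalIdeal O) :
    τO a ∈ IsLocalRing.maximalIdeal O := by
  rw [IsLocalRing.mem_maximalIdeal, mem_nonunits_iff] at ha ⊢
  exact fun h => ha ((MulEquiv.isUnit_map τO).1 h)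

theorem ptEval_comp_sub_mem (τO : O ≃ₐ[W] O)
    (hres : ∀ a : O, τO a - a ∈ IsLocalRing.maximalIdeal O) (q : B →ₐ[W] O) (x : O ⊗[W] B) :
    ptEval ((τO : O →ₐ[W] O).comp q) x - ptEval q x ∈ IsLocalRing.maximalIdeal O := by
  induction x using TensorProduct.induction_on with
  | zero => simp
  | tmul a b =>
    rw [ptEval_tmul, ptEval_tmul, ← mul_sub]
    exact Ideal.mul_mem_left _ _ (hres (q b))
  | add x y hx hy =>
    have h : ptEval ((τO : O →ₐ[W] O).comp q) (x + y) - ptEval q (x + y) =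
        (ptEval ((τO : O →ₐ[W] O).comp q) x - ptEval q x) +
          (ptEval ((τO : O →ₐ[W] O).comp q) y - ptEval q y) := by
      rw [map_add, map_add]; ring
    rw [h]
    exact Ideal.add_mem _ hx hy

/-- **(B3)** An automorphism inducing the identity on the residue field does not move the
reduction of an `O`-point. -/
theorem redIdeal_comp (τO : O ≃ₐ[W] O)
    (hres : ∀ a : O, τO a - a ∈ IsLocalRing.maximalIdeal O) (q : B →ₐ[W] O) :
    redIdeal O ((τO : O →ₐ[W] O).comp q) = redIdeal O q := by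
  ext x
  rw [mem_redIdeal, mem_redIdeal]
  have h := ptEval_comp_sub_mem O τO hres q x
  constructor
  · intro h1
    have := Ideal.sub_mem _ h1 h
    rwa [sub_sub_cancel] at this
  · intro h1
    have := Ideal.add_mem _ h h1
    rwa [sub_add_cancel] at this

/-- **(B3)** The points of a stable multiset of `O`-points with a given reduction form a stable
multiset. -/
theorem filter_redIdeal_stable (τO : O ≃ₐ[W] O)
    (hres : ∀ a : O, τO a - a ∈ IsLocalRing.maximalIdeal O) (𝔫 : Ideal (O ⊗[W] B))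
    [DecidablePred fun q : B →ₐ[W] O => redIdeal O q = 𝔫] (S : Multiset (B →ₐ[W] O))
    (hS : S.map (fun q => (τO : O →ₐ[W] O).comp q) = S) :
    (S.filter fun q => redIdeal O q = 𝔫).map (fun q => (τO : O →ₐ[W] O).comp q) =
      S.filter fun q => redIdeal O q = 𝔫 :=
  filter_map_stable (fun q => (τO : O →ₐ[W] O).comp q) (fun q => redIdeal O q = 𝔫)
    (fun q => by rw [redIdeal_comp O τO hres q]) S hS

/-- The maximal ideal `𝔫` lies on all the components `V(P i)` (a node, for two components). -/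
def IsTwoBranch {R : Type*} [CommRing R] {ι : Type*} (P : ι → Ideal R) (𝔫 : Ideal R) : Prop :=
  ∀ i, P i ≤ 𝔫

end Red

/-! ### (B1) Integral models of points -/

section Model

variable {W B0 B1 B01 : Type u} [CommRing W] [CommRing B0] [CommRing B1] [CommRing B01]
  [Algebra W B0] [Algebra W B1] [Algebra W B01] [Algebra B0 B01] [Algebra B1 B01]
  [IsScalarTower W B0 B01] [IsScalarTower W B1 B01]
  (c0 : TwoChart W B0 B1 B01)
  (O : Type u) [CommRing O] [IsDomain O] [IsDiscreteValuationRing O] [Algebra W O]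
  (L : Type u) [Field L] [Algebra W L] [Algebra O L] [IsScalarTower W O L] [IsFractionRing O L]

/-- The `O`-points of the two charts. -/
abbrev OPt (_c0 : TwoChart W B0 B1 B01) (O : Type u) [CommRing O] [Algebra W O] : Type u :=
  (B0 →ₐ[W] O) ⊕ (B1 →ₐ[W] O)

/-- **(M3) ⇒ chart-1 points with `s ∈ 𝔪_O` are not node points.** -/
theorem not_isTwoBranch_of_s_mem {ι : Type*} (P1 : ι → Ideal (O ⊗[W] B1))
    (hM3 : ∀ 𝔫 : Ideal (O ⊗[W] B1), 𝔫.IsMaximal → IsTwoBranch P1 𝔫 → (c0.baseChange O).s ∉ 𝔫)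
    (q1 : B1 →ₐ[W] O) (hs : q1 c0.s ∈ IsLocalRing.maximalIdeal O) :
    ¬ IsTwoBranch P1 (redIdeal O q1) := fun h =>
  hM3 _ (redIdeal_isMaximal O q1) h ((one_tmul_mem_redIdeal_iff O q1 c0.s).2 hs)

variable {O} in
/-- `ptComp L` is injective on `O`-points. -/
theorem ptComp_injective {B : Type u} [CommRing B] [Algebra W B] {q q' : B →ₐ[W] O}
    (h : ptComp L q = ptComp L q') : q = q' :=
  AlgHom.ext fun b => IsFractionRing.injective O L (by
    have := AlgHom.congr_fun h b
    rwa [ptComp_apply, ptComp_apply] at this)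

variable {L} in
include c0 in
/-- A point of the overlap is determined by its restriction to chart 0. -/
theorem overlap_ext0 {q01 q01' : B01 →ₐ[W] L}
    (h : ptRes0 (B0 := B0) q01 = ptRes0 q01') : q01 = q01' := by
  haveI : IsLocalization (Submonoid.powers c0.t) B01 := c0.away0
  apply AlgHom.coe_ringHom_injective
  apply IsLocalization.ringHom_ext (Submonoid.powers c0.t)
  ext b
  exact AlgHom.congr_fun h b

variable {L} in
include c0 in
/-- A point of the overlap is determined by its restriction to chart 1. -/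
theorem overlap_ext1 {q01 q01' : B01 →ₐ[W] L}
    (h : ptRes1 (B1 := B1) q01 = ptRes1 q01') : q01 = q01' := by
  haveI : IsLocalization (Submonoid.powers c0.s) B01 := c0.away1
  apply AlgHom.coe_ringHom_injective
  apply IsLocalization.ringHom_ext (Submonoid.powers c0.s)
  ext b
  exact AlgHom.congr_fun h b

/-- **`m` is the normalised integral model of the `L`-point `x`**: on chart 0 if `t(x) ∈ O`, on
chart 1 (with `s(m) ∈ 𝔪_O`) otherwise. -/
def IsModel : PtIdx c0 L → OPt c0 O → Prop
  | Sum.inl q, Sum.inl q0 => ptComp L q0 = q.1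
  | Sum.inl q, Sum.inr q1 => q1 c0.s ∈ IsLocalRing.maximalIdeal O ∧
      ∃ q01 : B01 →ₐ[W] L, ptRes0 q01 = q.1 ∧ ptRes1 q01 = ptComp L q1
  | Sum.inr q, Sum.inr q1 => q1 c0.s ∈ IsLocalRing.maximalIdeal O ∧ ptComp L q1 = q.1
  | Sum.inr q, Sum.inl q0 => ∃ q01 : B01 →ₐ[W] L, ptRes1 q01 = q.1 ∧ ptRes0 q01 = ptComp L q0

/-- A chart-1 model has `s ∈ 𝔪_O`. -/
theorem IsModel.s_mem {x : PtIdx c0 L} {q1 : B1 →ₐ[W] O}
    (h : IsModel c0 O L x (Sum.inr q1)) : q1 c0.s ∈ IsLocalRing.maximalIdeal O := by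
  rcases x with q | q
  · exact h.1
  · exact h.1

/-- Key incompatibility: a point of the overlap whose chart-0 restriction comes from the `O`-point
`q0` cannot have a chart-1 restriction coming from an `O`-point with `s ∈ 𝔪_O`. -/
theorem not_mem_of_overlap (q01 : B01 →ₐ[W] L) (q0 : B0 →ₐ[W] O) (q1 : B1 →ₐ[W] O)
    (h0 : ptRes0 q01 = ptComp L q0) (h1 : ptRes1 q01 = ptComp L q1) :
    q1 c0.s ∉ IsLocalRing.maximalIdeal O := by
  have ht : q01 (algebraMap B0 B01 c0.t) = algebraMap O L (q0 c0.t) := AlgHom.congr_fun h0 c0.t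
  have hs : q01 (algebraMap B1 B01 c0.s) = algebraMap O L (q1 c0.s) := AlgHom.congr_fun h1 c0.s
  have h := congrArg q01 c0.ts
  rw [map_mul, ht, hs, map_one, ← map_mul] at h
  have h' : q0 c0.t * q1 c0.s = 1 := IsFractionRing.injective O L (by rw [h, map_one])
  rw [IsLocalRing.mem_maximalIdeal, mem_nonunits_iff, not_not]
  exact IsUnit.of_mul_eq_one _ (by rw [mul_comm]; exact h')

/-- **Uniqueness of the normalised model.** -/
theorem IsModel.unique {x : PtIdx c0 L} {m m' : OPt c0 O} (h : IsModel c0 O L x m)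
    (h' : IsModel c0 O L x m') : m = m' := by
  rcases x with q | q <;> rcases m with q0 | q1 <;> rcases m' with q0' | q1'
  · exact congrArg Sum.inl (ptComp_injective L ((show ptComp L q0 = q.1 from h).trans
      (show ptComp L q0' = q.1 from h').symm))
  · obtain ⟨hs, q01, hq0, hq1⟩ := h'
    exact absurd hs (not_mem_of_overlap c0 O L q01 q0 q1' (hq0.trans
      (show ptComp L q0 = q.1 from h).symm) hq1)
  · obtain ⟨hs, q01, hq0, hq1⟩ := h
    exact absurd hs (not_mem_of_overlap c0 O L q01 q0' q1 (hq0.trans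
      (show ptComp L q0' = q.1 from h').symm) hq1)
  · obtain ⟨_, q01, hq0, hq1⟩ := h
    obtain ⟨_, q01', hq0', hq1'⟩ := h'
    have he : q01 = q01' := overlap_ext0 c0 (hq0.trans hq0'.symm)
    subst he
    exact congrArg Sum.inr (ptComp_injective L (hq1.symm.trans hq1'))
  · obtain ⟨q01, hq1, hq0⟩ := h
    obtain ⟨q01', hq1', hq0'⟩ := h'
    have he : q01 = q01' := overlap_ext1 c0 (hq1.trans hq1'.symm)
    subst he
    exact congrArg Sum.inl (ptComp_injective L (hq0.symm.trans hq0'))
  · obtain ⟨q01, hq1, hq0⟩ := h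
    obtain ⟨hs, hq⟩ := h'
    exact absurd hs (not_mem_of_overlap c0 O L q01 q0 q1' hq0 (hq1.trans hq.symm))
  · obtain ⟨q01, hq1, hq0⟩ := h'
    obtain ⟨hs, hq⟩ := h
    exact absurd hs (not_mem_of_overlap c0 O L q01 q0' q1 hq0 (hq1.trans hq.symm))
  · exact congrArg Sum.inr (ptComp_injective L (h.2.trans h'.2.symm))

/-- In the fraction field of a DVR, an element which is not the image of an element of `𝔪_O` is
nonzero with inverse in `O`. -/
theorem inv_mem_range_of_not_mem_maximalIdeal {x : L}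
    (hx : ¬ ∃ a ∈ IsLocalRing.maximalIdeal O, algebraMap O L a = x) :
    x ≠ 0 ∧ x⁻¹ ∈ Set.range (algebraMap O L) := by
  refine ⟨fun h0 => hx ⟨0, Ideal.zero_mem _, by rw [map_zero, h0]⟩, ?_⟩
  by_cases hr : x ∈ Set.range (algebraMap O L)
  · obtain ⟨a, rfl⟩ := hr
    have hu : IsUnit a := by
      by_contra hu
      exact hx ⟨a, (IsLocalRing.mem_maximalIdeal a).2 hu, rfl⟩
    obtain ⟨u, rfl⟩ := hu
    refine ⟨((u⁻¹ : Oˣ) : O), ?_⟩
    refine eq_inv_of_mul_eq_one_left ?_
    rw [← map_mul, Units.inv_mul, map_one]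
  · exact inv_mem_range_of_not_mem O L hr

/-- In the fraction field of a DVR, an element outside `O` has its inverse in `𝔪_O`. -/
theorem inv_mem_maximalIdeal_of_not_mem {x : L} (hx : x ∉ Set.range (algebraMap O L)) :
    ∃ a ∈ IsLocalRing.maximalIdeal O, algebraMap O L a = x⁻¹ := by
  obtain ⟨a, ha⟩ := inv_mem_range_of_not_mem O L hx
  refine ⟨a, ?_, ha⟩
  rw [IsLocalRing.mem_maximalIdeal, mem_nonunits_iff]
  rintro ⟨u, rfl⟩
  apply hx
  refine ⟨((u⁻¹ : Oˣ) : O), ?_⟩
  have h1 : algebraMap O L ((u⁻¹ : Oˣ) : O) * algebraMap O L (u : O) = 1 := by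
    rw [← map_mul, Units.inv_mul, map_one]
  rw [ha] at h1
  have hx0 : x ≠ 0 := fun h0 => hx ⟨0, by rw [map_zero, h0]⟩
  field_simp at h1
  exact h1

/-- **Existence of the normalised model.** -/
theorem exists_isModel
    (hint0 : ∀ b : B0, IsIntegral (Algebra.adjoin W {c0.t}) b)
    (hint1 : ∀ b : B1, IsIntegral (Algebra.adjoin W {c0.s}) b)
    (x : PtIdx c0 L) : ∃ m : OPt c0 O, IsModel c0 O L x m := by
  rcases x with q | q
  · by_cases ht : q.1 c0.t ∈ Set.range (algebraMap O L)
    · obtain ⟨q0, hq0⟩ := exists_factor_of_integral c0.t hint0 q.1 ht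
      exact ⟨Sum.inl q0, AlgHom.ext hq0⟩
    · have hne : q.1 c0.t ≠ 0 := fun h0 => ht ⟨0, by rw [map_zero, h0]⟩
      obtain ⟨a, ha, hat⟩ := inv_mem_maximalIdeal_of_not_mem O L ht
      haveI : IsLocalization (Submonoid.powers c0.t) B01 := c0.away0
      have hunit : ∀ y : Submonoid.powers c0.t, IsUnit (q.1 y) := by
        rintro ⟨y, n, rfl⟩
        show IsUnit (q.1 (c0.t ^ n))
        rw [map_pow]
        exact (IsUnit.mk0 _ hne).pow n
      let q01 : B01 →ₐ[W] L :=
        IsLocalization.liftAlgHom (M := Submonoid.powers c0.t) (f := q.1) hunit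
      have h01 : ∀ b : B0, q01 (algebraMap B0 B01 b) = q.1 b := fun b =>
        IsLocalization.lift_eq hunit b
      have hq : ptRes0 q01 = q.1 := AlgHom.ext h01
      have hs : (ptRes1 q01 : B1 →ₐ[W] L) c0.s = algebraMap O L a := by
        have h1 : q.1 c0.t * (ptRes1 q01 : B1 →ₐ[W] L) c0.s = 1 := by
          rw [← h01, ptRes1_apply, ← map_mul, c0.ts, map_one]
        rw [eq_inv_of_mul_eq_one_right h1]
        exact hat.symm
      obtain ⟨q1, hq1⟩ := exists_factor_of_integral c0.s hint1 (ptRes1 q01) ⟨a, hs.symm⟩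
      have hq1s : q1 c0.s = a := IsFractionRing.injective O L ((hq1 c0.s).trans hs)
      exact ⟨Sum.inr q1, by rw [hq1s]; exact ha, q01, hq, (AlgHom.ext hq1).symm⟩
  · by_cases hs : ∃ a ∈ IsLocalRing.maximalIdeal O, algebraMap O L a = q.1 c0.s
    · obtain ⟨a, ha, has⟩ := hs
      obtain ⟨q1, hq1⟩ := exists_factor_of_integral c0.s hint1 q.1 ⟨a, has⟩
      have hq1s : q1 c0.s = a := IsFractionRing.injective O L ((hq1 c0.s).trans has.symm)
      exact ⟨Sum.inr q1, by rw [hq1s]; exact ha, AlgHom.ext hq1⟩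
    · obtain ⟨hne, hinvO⟩ := inv_mem_range_of_not_mem_maximalIdeal O L hs
      haveI : IsLocalization (Submonoid.powers c0.s) B01 := c0.away1
      have hunit : ∀ y : Submonoid.powers c0.s, IsUnit (q.1 y) := by
        rintro ⟨y, n, rfl⟩
        show IsUnit (q.1 (c0.s ^ n))
        rw [map_pow]
        exact (IsUnit.mk0 _ hne).pow n
      let q01 : B01 →ₐ[W] L :=
        IsLocalization.liftAlgHom (M := Submonoid.powers c0.s) (f := q.1) hunit
      have h01 : ∀ b : B1, q01 (algebraMap B1 B01 b) = q.1 b := fun b =>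
        IsLocalization.lift_eq hunit b
      have hq : ptRes1 q01 = q.1 := AlgHom.ext h01
      have ht : (ptRes0 q01 : B0 →ₐ[W] L) c0.t ∈ Set.range (algebraMap O L) := by
        have h1 : (ptRes0 q01 : B0 →ₐ[W] L) c0.t * q.1 c0.s = 1 := by
          rw [← h01, ptRes0_apply, ← map_mul, c0.ts, map_one]
        rw [eq_inv_of_mul_eq_one_left h1]
        exact hinvO
      obtain ⟨q0, hq0⟩ := exists_factor_of_integral c0.t hint0 (ptRes0 q01) ht
      exact ⟨Sum.inl q0, q01, hq, (AlgHom.ext hq0).symm⟩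

theorem existsUnique_isModel
    (hint0 : ∀ b : B0, IsIntegral (Algebra.adjoin W {c0.t}) b)
    (hint1 : ∀ b : B1, IsIntegral (Algebra.adjoin W {c0.s}) b)
    (x : PtIdx c0 L) : ∃! m : OPt c0 O, IsModel c0 O L x m := by
  obtain ⟨m, hm⟩ := exists_isModel c0 O L hint0 hint1 x
  exact ⟨m, hm, fun m' hm' => IsModel.unique c0 O L hm' hm⟩

/-- **(B1) The normalised integral model of an `L`-point.** -/
noncomputable def model
    (hint0 : ∀ b : B0, IsIntegral (Algebra.adjoin W {c0.t}) b)
    (hint1 : ∀ b : B1, IsIntegral (Algebra.adjoin W {c0.s}) b)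
    (x : PtIdx c0 L) : OPt c0 O :=
  (exists_isModel c0 O L hint0 hint1 x).choose

section WithInt

variable (hint0 : ∀ b : B0, IsIntegral (Algebra.adjoin W {c0.t}) b)
  (hint1 : ∀ b : B1, IsIntegral (Algebra.adjoin W {c0.s}) b)

theorem isModel_model (x : PtIdx c0 L) : IsModel c0 O L x (model c0 O L hint0 hint1 x) :=
  (exists_isModel c0 O L hint0 hint1 x).choose_spec

theorem model_eq_of_isModel {x : PtIdx c0 L} {m : OPt c0 O} (h : IsModel c0 O L x m) :
    model c0 O L hint0 hint1 x = m :=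
  IsModel.unique c0 O L (isModel_model c0 O L hint0 hint1 x) h

/-- Chart-1 models have `s ∈ 𝔪_O`. -/
theorem model_inr_s_mem {x : PtIdx c0 L} {q1 : B1 →ₐ[W] O}
    (h : model c0 O L hint0 hint1 x = Sum.inr q1) : q1 c0.s ∈ IsLocalRing.maximalIdeal O :=
  IsModel.s_mem c0 O L (x := x) (h ▸ isModel_model c0 O L hint0 hint1 x)

end WithInt

/-! ### The generic fibre of an `O`-point and its class -/

section Gen

variable (hinvL0 : ∀ q : B0 →ₐ[W] L, Module.Invertible (L ⊗[W] B0) (ptIdeal q))
  (hinvL1 : ∀ q : B1 →ₐ[W] L, Module.Invertible (L ⊗[W] B1) (ptIdeal q))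

/-- The generic fibre of an `O`-point. -/
noncomputable def genIdx : OPt c0 O → PtIdx c0 L
  | Sum.inl q0 => Sum.inl ⟨ptComp L q0, hinvL0 _⟩
  | Sum.inr q1 => Sum.inr ⟨ptComp L q1, hinvL1 _⟩

/-- **(B1)** The generic fibre of a model of `x` has the class of `x`. -/
theorem ptCls_genIdx_of_isModel {x : PtIdx c0 L} {m : OPt c0 O} (h : IsModel c0 O L x m) :
    ptCls c0 (genIdx c0 O L hinvL0 hinvL1 m) = ptCls c0 x := by
  rcases x with q | q <;> rcases m with q0 | q1
  · exact ptClass0_congr c0 (show ptComp L q0 = q.1 from h) q.2 (hinvL0 _)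
  · obtain ⟨_, q01, hq0, hq1⟩ := h
    show ptClass1 c0 (ptComp L q1) (hinvL1 (ptComp L q1)) = ptClass0 c0 q.1 q.2
    exact (ptClass1_congr c0 hq1 (hinvL1 (ptComp L q1)) (hinvL1 (ptRes1 q01))).symm.trans
      ((ptClass0_eq_ptClass1 c0 q01 (hinvL0 (ptRes0 q01)) (hinvL1 (ptRes1 q01))).symm.trans
        (ptClass0_congr c0 hq0 q.2 (hinvL0 (ptRes0 q01))))
  · obtain ⟨q01, hq1, hq0⟩ := h
    show ptClass0 c0 (ptComp L q0) (hinvL0 (ptComp L q0)) = ptClass1 c0 q.1 q.2
    exact (ptClass0_congr c0 hq0 (hinvL0 (ptComp L q0)) (hinvL0 (ptRes0 q01))).symm.trans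
      ((ptClass0_eq_ptClass1 c0 q01 (hinvL0 (ptRes0 q01)) (hinvL1 (ptRes1 q01))).trans
        (ptClass1_congr c0 hq1 q.2 (hinvL1 (ptRes1 q01))))
  · exact ptClass1_congr c0 (show ptComp L q1 = q.1 from h.2) q.2 (hinvL1 _)

variable (hint0 : ∀ b : B0, IsIntegral (Algebra.adjoin W {c0.t}) b)
  (hint1 : ∀ b : B1, IsIntegral (Algebra.adjoin W {c0.s}) b)

/-- **(B1)** `[model x]_L = [x]`. -/
theorem ptCls_genIdx_model (x : PtIdx c0 L) :
    ptCls c0 (genIdx c0 O L hinvL0 hinvL1 (model c0 O L hint0 hint1 x)) = ptCls c0 x :=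
  ptCls_genIdx_of_isModel c0 O L hinvL0 hinvL1 (isModel_model c0 O L hint0 hint1 x)

/-- **(B1)**, multiset form. -/
theorem msCls_map_genIdx_model (s : Multiset (PtIdx c0 L)) :
    msCls c0 ((s.map (model c0 O L hint0 hint1)).map (genIdx c0 O L hinvL0 hinvL1)) =
      msCls c0 s := by
  unfold msCls
  rw [Multiset.map_map, Multiset.map_map]
  refine congrArg Multiset.prod (Multiset.map_congr rfl fun x _ => ?_)
  exact ptCls_genIdx_model c0 O L hinvL0 hinvL1 hint0 hint1 x

end Gen

/-! ### (B3) Galois action -/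

section Twist

variable {O}

/-- The action of a `W`-automorphism of `O` on the `O`-points of the charts. -/
def twistO (τO : O ≃ₐ[W] O) : OPt c0 O → OPt c0 O
  | Sum.inl q0 => Sum.inl ((τO : O →ₐ[W] O).comp q0)
  | Sum.inr q1 => Sum.inr ((τO : O →ₐ[W] O).comp q1)

theorem getLeft?_twistO (τO : O ≃ₐ[W] O) (m : OPt c0 O) :
    Sum.getLeft? (twistO c0 τO m) = (Sum.getLeft? m).map fun q => (τO : O →ₐ[W] O).comp q := by
  rcases m with q | q <;> rfl

theorem getRight?_twistO (τO : O ≃ₐ[W] O) (m : OPt c0 O) :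
    Sum.getRight? (twistO c0 τO m) = (Sum.getRight? m).map fun q => (τO : O →ₐ[W] O).comp q := by
  rcases m with q | q <;> rfl

variable {L}
variable (τL : L ≃ₐ[W] L) (τO : O ≃ₐ[W] O)
  (hcomp : ∀ a : O, τL (algebraMap O L a) = algebraMap O L (τO a))

include hcomp in
theorem twist_ptComp {B : Type u} [CommRing B] [Algebra W B] (q : B →ₐ[W] O) :
    (τL : L →ₐ[W] L).comp (ptComp L q) = ptComp L ((τO : O →ₐ[W] O).comp q) :=
  AlgHom.ext fun b => hcomp (q b)

include hcomp in
/-- **(B3)** `τO ∘ m` is the model of `τL ∘ x`. -/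
theorem isModel_twist {x : PtIdx c0 L} {m : OPt c0 O} (h : IsModel c0 O L x m) :
    IsModel c0 O L (twistIdx c0 τL x) (twistO c0 τO m) := by
  rcases x with q | q <;> rcases m with q0 | q1
  · show ptComp L ((τO : O →ₐ[W] O).comp q0) = (τL : L →ₐ[W] L).comp q.1
    rw [← twist_ptComp τL τO hcomp, show ptComp L q0 = q.1 from h]
  · obtain ⟨hs, q01, hq0, hq1⟩ := h
    refine ⟨map_mem_maximalIdeal O τO hs, (τL : L →ₐ[W] L).comp q01, ?_, ?_⟩
    · show ((τL : L →ₐ[W] L).comp q01).comp _ = (τL : L →ₐ[W] L).comp q.1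
      rw [← hq0]; rfl
    · show ((τL : L →ₐ[W] L).comp q01).comp _ = ptComp L ((τO : O →ₐ[W] O).comp q1)
      rw [← twist_ptComp τL τO hcomp, ← hq1]; rfl
  · obtain ⟨q01, hq1, hq0⟩ := h
    refine ⟨(τL : L →ₐ[W] L).comp q01, ?_, ?_⟩
    · show ((τL : L →ₐ[W] L).comp q01).comp _ = (τL : L →ₐ[W] L).comp q.1
      rw [← hq1]; rfl
    · show ((τL : L →ₐ[W] L).comp q01).comp _ = ptComp L ((τO : O →ₐ[W] O).comp q0)
      rw [← twist_ptComp τL τO hcomp, ← hq0]; rfl
  · obtain ⟨hs, hq⟩ := h
    refine ⟨map_mem_maximalIdeal O τO hs, ?_⟩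
    show ptComp L ((τO : O →ₐ[W] O).comp q1) = (τL : L →ₐ[W] L).comp q.1
    rw [← twist_ptComp τL τO hcomp, hq]

variable (hint0 : ∀ b : B0, IsIntegral (Algebra.adjoin W {c0.t}) b)
  (hint1 : ∀ b : B1, IsIntegral (Algebra.adjoin W {c0.s}) b)

include hcomp in
/-- **(B3)** `model (τL ∘ x) = τO ∘ model x`. -/
theorem model_twistIdx (x : PtIdx c0 L) :
    model c0 O L hint0 hint1 (twistIdx c0 τL x) = twistO c0 τO (model c0 O L hint0 hint1 x) :=
  model_eq_of_isModel c0 O L hint0 hint1
    (isModel_twist c0 τL τO hcomp (isModel_model c0 O L hint0 hint1 x))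

include hcomp in
/-- **(B3)** The models of a `τL`-stable multiset of `L`-points form a `τO`-stable multiset. -/
theorem map_model_stable (s : Multiset (PtIdx c0 L)) (hs : s.map (twistIdx c0 τL) = s) :
    (s.map (model c0 O L hint0 hint1)).map (twistO c0 τO) = s.map (model c0 O L hint0 hint1) := by
  conv_rhs => rw [← hs]
  rw [Multiset.map_map, Multiset.map_map]
  exact Multiset.map_congr rfl fun x _ => (model_twistIdx c0 τL τO hcomp hint0 hint1 x).symm

end Twist

/-! ### The deliverable -/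

section Deliver

variable (hint0 : ∀ b : B0, IsIntegral (Algebra.adjoin W {c0.t}) b)
  (hint1 : ∀ b : B1, IsIntegral (Algebra.adjoin W {c0.s}) b)
  (hinvL0 : ∀ q : B0 →ₐ[W] L, Module.Invertible (L ⊗[W] B0) (ptIdeal q))
  (hinvL1 : ∀ q : B1 →ₐ[W] L, Module.Invertible (L ⊗[W] B1) (ptIdeal q))

/-- The chart-0 models of a multiset of `L`-points. -/
noncomputable def models0 (s : Multiset (PtIdx c0 L)) : Multiset (B0 →ₐ[W] O) :=
  (s.map (model c0 O L hint0 hint1)).filterMap Sum.getLeft?

/-- The chart-1 models of a multiset of `L`-points. -/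
noncomputable def models1 (s : Multiset (PtIdx c0 L)) : Multiset (B1 →ₐ[W] O) :=
  (s.map (model c0 O L hint0 hint1)).filterMap Sum.getRight?

/-- The class of a multiset of `L`-points is the product of the classes of the generic fibres of
its chart-0 and chart-1 models. -/
theorem msCls_eq_models (s : Multiset (PtIdx c0 L)) :
    msCls c0 s =
      ((models0 c0 O L hint0 hint1 s).map fun q => ptClass0 c0 (ptComp L q) (hinvL0 _)).prod *
        ((models1 c0 O L hint0 hint1 s).map fun q => ptClass1 c0 (ptComp L q) (hinvL1 _)).prod := by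
  rw [← msCls_map_genIdx_model c0 O L hinvL0 hinvL1 hint0 hint1 s]
  unfold msCls
  rw [Multiset.map_map, prod_map_sum_split]
  rfl

/-- All chart-1 models have `s ∈ 𝔪_O`. -/
theorem models1_s_mem (s : Multiset (PtIdx c0 L)) (q1 : B1 →ₐ[W] O)
    (h : q1 ∈ models1 c0 O L hint0 hint1 s) : q1 c0.s ∈ IsLocalRing.maximalIdeal O := by
  unfold models1 at h
  rw [Multiset.mem_filterMap] at h
  obtain ⟨m, hm, hmq⟩ := h
  rw [Multiset.mem_map] at hm
  obtain ⟨x, _, rfl⟩ := hm
  have : model c0 O L hint0 hint1 x = Sum.inr q1 := by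
    rcases hx : model c0 O L hint0 hint1 x with q | q
    · rw [hx] at hmq; cases hmq
    · rw [hx] at hmq
      exact congrArg Sum.inr (Option.some.inj hmq)
  exact model_inr_s_mem c0 O L hint0 hint1 this

variable {O L} in
/-- **(B3)** stability of the chart-0 and chart-1 models. -/
theorem models_stable (τL : L ≃ₐ[W] L) (τO : O ≃ₐ[W] O)
    (hcomp : ∀ a : O, τL (algebraMap O L a) = algebraMap O L (τO a))
    (s : Multiset (PtIdx c0 L)) (hs : s.map (twistIdx c0 τL) = s) :
    (models0 c0 O L hint0 hint1 s).map (fun q => (τO : O →ₐ[W] O).comp q) =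
        models0 c0 O L hint0 hint1 s ∧
      (models1 c0 O L hint0 hint1 s).map (fun q => (τO : O →ₐ[W] O).comp q) =
        models1 c0 O L hint0 hint1 s := by
  have h := map_model_stable c0 τL τO hcomp hint0 hint1 s hs
  constructor
  · unfold models0
    conv_rhs => rw [← h]
    have hf : (fun m : OPt c0 O => (Sum.getLeft? m).map fun q => (τO : O →ₐ[W] O).comp q) =
        Sum.getLeft? ∘ twistO c0 τO := funext fun m => (getLeft?_twistO c0 τO m).symm
    rw [Multiset.map_filterMap, hf]
    exact (Multiset.filterMap_map _ _ _).symm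
  · unfold models1
    conv_rhs => rw [← h]
    have hf : (fun m : OPt c0 O => (Sum.getRight? m).map fun q => (τO : O →ₐ[W] O).comp q) =
        Sum.getRight? ∘ twistO c0 τO := funext fun m => (getRight?_twistO c0 τO m).symm
    rw [Multiset.map_filterMap, hf]
    exact (Multiset.filterMap_map _ _ _).symm

include hint0 hint1 in
/-- **PHI6 (B), deliverable.**  From a multiset `s` of `L`-points: multisets `S0`, `S1` of `O`-points
of chart 0 and chart 1 (no invertibility claim over `O`) such that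
* the class of `s` is the product of the classes of the generic fibres of the points of `S0`, `S1`;
* every point of `S1` has `s ∈ 𝔪_O` (so, under (M3), reduces to a one-branch point:
  `not_isTwoBranch_of_s_mem`);
* for every compatible pair `(τL, τO)` of `W`-automorphisms of `L`, `O` such that `s` is
  `τL`-stable, `S0` and `S1` are `τO`-stable, and so is every fibre of `q̃ ↦ redIdeal q̃` on them when
  `τO` induces the identity on the residue field. -/
theorem exists_models (s : Multiset (PtIdx c0 L)) :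
    ∃ (S0 : Multiset (B0 →ₐ[W] O)) (S1 : Multiset (B1 →ₐ[W] O)),
      msCls c0 s = (S0.map fun q => ptClass0 c0 (ptComp L q) (hinvL0 _)).prod *
          (S1.map fun q => ptClass1 c0 (ptComp L q) (hinvL1 _)).prod ∧
      (∀ q1 ∈ S1, q1 c0.s ∈ IsLocalRing.maximalIdeal O) ∧
      ∀ (τL : L ≃ₐ[W] L) (τO : O ≃ₐ[W] O),
        (∀ a : O, τL (algebraMap O L a) = algebraMap O L (τO a)) →
        s.map (twistIdx c0 τL) = s →
        (S0.map (fun q => (τO : O →ₐ[W] O).comp q) = S0 ∧
          S1.map (fun q => (τO : O →ₐ[W] O).comp q) = S1) ∧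
        ((∀ a : O, τO a - a ∈ IsLocalRing.maximalIdeal O) →
          (∀ (𝔫 : Ideal (O ⊗[W] B0)) [DecidablePred fun q : B0 →ₐ[W] O => redIdeal O q = 𝔫],
            (S0.filter fun q => redIdeal O q = 𝔫).map (fun q => (τO : O →ₐ[W] O).comp q) =
              S0.filter fun q => redIdeal O q = 𝔫) ∧
          ∀ (𝔫 : Ideal (O ⊗[W] B1)) [DecidablePred fun q : B1 →ₐ[W] O => redIdeal O q = 𝔫],
            (S1.filter fun q => redIdeal O q = 𝔫).map (fun q => (τO : O →ₐ[W] O).comp q) =
              S1.filter fun q => redIdeal O q = 𝔫) := by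
  refine ⟨models0 c0 O L hint0 hint1 s, models1 c0 O L hint0 hint1 s,
    msCls_eq_models c0 O L hint0 hint1 hinvL0 hinvL1 s, models1_s_mem c0 O L hint0 hint1 s,
    fun τL τO hcomp hs => ?_⟩
  have h := models_stable c0 hint0 hint1 τL τO hcomp s hs
  refine ⟨h, fun hres => ⟨fun 𝔫 _ => ?_, fun 𝔫 _ => ?_⟩⟩
  · exact filter_redIdeal_stable O τO hres 𝔫 _ h.1
  · exact filter_redIdeal_stable O τO hres 𝔫 _ h.2

end Deliver

end Model

end Fermat.Agent.T1B.Desc43.IntModel
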