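import Mathlib

/-!
# T1B, brick Phi4 DESC' (second seat helper43): splitting of closed points over a splitting field

Mathlib-only algebra.

* `splitHom K E L'` : `L' ⊗[K] E →ₐ[L'] ((E →ₐ[K] L') → L')`, `l ⊗ x ↦ (l * τ x)_τ`;
  bijective for `E/K` finite separable whose minimal polynomials split in `L'`.
* `evalAt` / `map_eq_iInf_ker` : for a maximal ideal `P` of a `K`-algebra `C` with residue field
  `E = C ⧸ P` finite separable and split by `L'`:
  `P.map (C → L' ⊗[K] C) = ⨅ τ : E →ₐ[K] L', ker (evalAt τ)`.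
-/

set_option autoImplicit false
set_option linter.unusedSectionVars false
set_option linter.style.haveILetI false

open TensorProduct

namespace Fermat.Agent.T1B.Desc43

section SplitHom

variable (K E L' : Type*) [Field K] [Field E] [Field L'] [Algebra K E] [Algebra K L']

/-- The `τ`-component: `L' ⊗[K] E →ₐ[L'] L'`, `l ⊗ x ↦ l * τ x`. -/
noncomputable def splitComp (τ : E →ₐ[K] L') : L' ⊗[K] E →ₐ[L'] L' :=
  Algebra.TensorProduct.productLeftAlgHom (AlgHom.id L' L') τ

@[simp] theorem splitComp_tmul (τ : E →ₐ[K] L') (l : L') (x : E) :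
    splitComp K E L' τ (l ⊗ₜ[K] x) = l * τ x := by
  simp [splitComp]

/-- `L' ⊗[K] E → ∏_τ L'`. -/
noncomputable def splitHom : L' ⊗[K] E →ₐ[L'] ((E →ₐ[K] L') → L') :=
  AlgHom.pi (splitComp K E L')

@[simp] theorem splitHom_apply (x : L' ⊗[K] E) (τ : E →ₐ[K] L') :
    splitHom K E L' x τ = splitComp K E L' τ x := rfl

variable [FiniteDimensional K E]

theorem splitHom_surjective : Function.Surjective (splitHom K E L') := by
  classical
  by_contra hns
  have hlt : LinearMap.range (splitHom K E L').toLinearMap < ⊤ := by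
    rw [lt_top_iff_ne_top, Ne, LinearMap.range_eq_top]
    exact hns
  obtain ⟨f, hf0, hf⟩ := Submodule.exists_le_ker_of_lt_top _ hlt
  -- `f = ∑ μ τ • ev_τ`
  have hli := linearIndependent_toLinearMap K E L'
  rw [Fintype.linearIndependent_iff] at hli
  have key : ∀ x : E, ∑ τ : E →ₐ[K] L', f (Pi.single τ 1) * τ x = 0 := by
    intro x
    have h1 : f (splitHom K E L' ((1 : L') ⊗ₜ[K] x)) = 0 := by
      have := hf (LinearMap.mem_range_self (splitHom K E L').toLinearMap ((1 : L') ⊗ₜ[K] x))
      simpa using this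
    have h2 : splitHom K E L' ((1 : L') ⊗ₜ[K] x) =
        ∑ τ : E →ₐ[K] L', (τ x) • (Pi.single τ (1 : L') : (E →ₐ[K] L') → L') := by
      funext τ
      simp [Finset.sum_apply, Pi.single_apply]
    rw [h2, map_sum] at h1
    simpa [mul_comm] using h1
  have hμ : ∀ τ : E →ₐ[K] L', f (Pi.single τ 1) = 0 := by
    apply hli (fun τ => f (Pi.single τ 1))
    ext x
    simpa [LinearMap.sum_apply] using key x
  apply hf0
  ext τ
  simpa using hμ τ

theorem splitHom_bijective [Algebra.IsSeparable K E]
    (hL : ∀ x : E, ((minpoly K x).map (algebraMap K L')).Splits) :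
    Function.Bijective (splitHom K E L') := by
  classical
  have hsurj := splitHom_surjective K E L'
  refine ⟨?_, hsurj⟩
  have hfin : Module.finrank L' (L' ⊗[K] E) = Module.finrank L' ((E →ₐ[K] L') → L') := by
    rw [Module.finrank_baseChange, Module.finrank_pi, AlgHom.card_of_splits K E L' hL]
  have : Function.Injective (splitHom K E L').toLinearMap :=
    (LinearMap.injective_iff_surjective_of_finrank_eq_finrank hfin).mpr hsurj
  exact this

/-- The splitting isomorphism `L' ⊗[K] E ≃ₐ[L'] ∏_{τ : E →ₐ[K] L'} L'`. -/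
noncomputable def splitEquiv [Algebra.IsSeparable K E]
    (hL : ∀ x : E, ((minpoly K x).map (algebraMap K L')).Splits) :
    L' ⊗[K] E ≃ₐ[L'] ((E →ₐ[K] L') → L') :=
  AlgEquiv.ofBijective (splitHom K E L') (splitHom_bijective K E L' hL)

end SplitHom

/-! ### Point ideals above a closed point -/

section PointIdeals

variable {K C L' : Type*} [Field K] [CommRing C] [Algebra K C] [Field L'] [Algebra K L']

/-- Evaluation at the `L'`-point `q : C →ₐ[K] L'`: `L' ⊗[K] C →ₐ[L'] L'`, `l ⊗ c ↦ l * q c`. -/
noncomputable def evalAt (q : C →ₐ[K] L') : L' ⊗[K] C →ₐ[L'] L' :=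
  Algebra.TensorProduct.productLeftAlgHom (AlgHom.id L' L') q

@[simp] theorem evalAt_tmul (q : C →ₐ[K] L') (l : L') (c : C) :
    evalAt q (l ⊗ₜ[K] c) = l * q c := by
  simp [evalAt]

theorem evalAt_surjective (q : C →ₐ[K] L') : Function.Surjective (evalAt q) := fun l =>
  ⟨l ⊗ₜ[K] 1, by simp⟩

instance evalAt_ker_isMaximal (q : C →ₐ[K] L') : (RingHom.ker (evalAt q)).IsMaximal :=
  RingHom.ker_isMaximal_of_surjective _ (evalAt_surjective q)

variable (P : Ideal C) [P.IsMaximal]

/-- The `L'`-point of `C` attached to an embedding `τ` of the residue field of `P`. -/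
noncomputable def ptOf (τ : (C ⧸ P) →ₐ[K] L') : C →ₐ[K] L' :=
  τ.comp (Ideal.Quotient.mkₐ K P)

@[simp] theorem ptOf_apply (τ : (C ⧸ P) →ₐ[K] L') (c : C) :
    ptOf P τ c = τ (Ideal.Quotient.mk P c) := rfl

theorem ptOf_injective : Function.Injective (ptOf (K := K) (L' := L') P) := by
  intro τ τ' h
  ext x
  obtain ⟨c, rfl⟩ := Ideal.Quotient.mk_surjective x
  exact DFunLike.congr_fun h c

/-- `evalAt (ptOf τ)` factors through `L' ⊗ (C ⧸ P)`. -/
theorem evalAt_ptOf (τ : (C ⧸ P) →ₐ[K] L') (x : L' ⊗[K] C) :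
    evalAt (ptOf P τ) x =
      letI : Field (C ⧸ P) := Ideal.Quotient.field P
      splitComp K (C ⧸ P) L' τ
        (Algebra.TensorProduct.map (AlgHom.id K L') (Ideal.Quotient.mkₐ K P) x) := by
  letI : Field (C ⧸ P) := Ideal.Quotient.field P
  induction x using TensorProduct.induction_on with
  | zero => simp
  | tmul l c => simp
  | add x y hx hy => simp only [map_add, hx, hy]

/-- **Splitting of a closed point**: if the residue field `C ⧸ P` is finite separable over `K`
and all its minimal polynomials split in `L'`, then the extension of `P` to `L' ⊗[K] C` is the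
intersection of the kernels of the evaluations at the `L'`-points above `P`. -/
theorem map_eq_iInf_ker [Module.Finite K (C ⧸ P)]
    (hsep : letI : Field (C ⧸ P) := Ideal.Quotient.field P; Algebra.IsSeparable K (C ⧸ P))
    (hL : ∀ x : C ⧸ P, ((minpoly K x).map (algebraMap K L')).Splits) :
    P.map (Algebra.TensorProduct.includeRight : C →ₐ[K] L' ⊗[K] C) =
      ⨅ τ : (C ⧸ P) →ₐ[K] L', RingHom.ker (evalAt (ptOf P τ)) := by
  letI : Field (C ⧸ P) := Ideal.Quotient.field P
  haveI := hsep
  have hker := Algebra.TensorProduct.lTensor_ker (A := L') (Ideal.Quotient.mkₐ K P)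
    (Ideal.Quotient.mkₐ_surjective K P)
  have hk2 : RingHom.ker (Ideal.Quotient.mkₐ K P) = P := by
    ext c
    simp [RingHom.mem_ker, Ideal.Quotient.eq_zero_iff_mem]
  rw [hk2] at hker
  rw [← hker]
  ext x
  simp only [RingHom.mem_ker, Ideal.mem_iInf, evalAt_ptOf]
  constructor
  · intro hx τ
    rw [hx, map_zero]
  · intro hx
    apply (splitHom_bijective K (C ⧸ P) L' hL).1
    rw [map_zero]
    funext τ
    exact hx τ

theorem evalAt_ker_injective :
    Function.Injective (fun q : C →ₐ[K] L' => RingHom.ker (evalAt q)) := by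
  intro q q' h
  ext c
  have h1 : ((1 : L') ⊗ₜ[K] c - (q c) ⊗ₜ[K] (1 : C) : L' ⊗[K] C) ∈ RingHom.ker (evalAt q) := by
    simp [RingHom.mem_ker]
  have h2 : ((1 : L') ⊗ₜ[K] c - (q c) ⊗ₜ[K] (1 : C) : L' ⊗[K] C) ∈ RingHom.ker (evalAt q') := by
    have h' : RingHom.ker (evalAt q) = RingHom.ker (evalAt q') := h
    rw [← h']; exact h1
  have h3 : q' c - q c = 0 := by simpa [RingHom.mem_ker] using h2
  exact (sub_eq_zero.mp h3).symm

/-- **Splitting of a closed point, product form.** -/
theorem map_eq_prod_ker [Module.Finite K (C ⧸ P)]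
    (hsep : letI : Field (C ⧸ P) := Ideal.Quotient.field P; Algebra.IsSeparable K (C ⧸ P))
    (hL : ∀ x : C ⧸ P, ((minpoly K x).map (algebraMap K L')).Splits) :
    letI : Field (C ⧸ P) := Ideal.Quotient.field P
    P.map (Algebra.TensorProduct.includeRight : C →ₐ[K] L' ⊗[K] C) =
      ∏ τ : (C ⧸ P) →ₐ[K] L', RingHom.ker (evalAt (ptOf P τ)) := by
  letI : Field (C ⧸ P) := Ideal.Quotient.field P
  rw [map_eq_iInf_ker P hsep hL, Ideal.prod_eq_iInf_of_pairwise_isCoprime]
  · simp
  · intro τ _ τ' _ hne
    apply Ideal.isCoprime_of_isMaximal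
    intro h
    exact hne (ptOf_injective P (evalAt_ker_injective h))

/-- Galois action on the points above `P`: `σ ∘ ptOf τ = ptOf (σ ∘ τ)`. -/
theorem comp_ptOf (σ : L' →ₐ[K] L') (τ : (C ⧸ P) →ₐ[K] L') :
    σ.comp (ptOf P τ) = ptOf P (σ.comp τ) := rfl

/-- The residue field of a closed point of a finite-type `K`-algebra is finite over `K`
(Nullstellensatz). -/
theorem finite_quotient_of_finiteType [Algebra.FiniteType K C] : Module.Finite K (C ⧸ P) := by
  letI : Field (C ⧸ P) := Ideal.Quotient.field P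
  haveI : Algebra.FiniteType K (C ⧸ P) :=
    Algebra.FiniteType.of_surjective (Ideal.Quotient.mkₐ K P) (Ideal.Quotient.mkₐ_surjective K P)
  exact finite_of_finite_type_of_isJacobsonRing K (C ⧸ P)

/-- ... and separable over a perfect field (e.g. characteristic zero). -/
theorem isSeparable_quotient_of_finiteType [Algebra.FiniteType K C] [PerfectField K] :
    letI : Field (C ⧸ P) := Ideal.Quotient.field P
    Algebra.IsSeparable K (C ⧸ P) := by
  letI : Field (C ⧸ P) := Ideal.Quotient.field P
  haveI := finite_quotient_of_finiteType (K := K) P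
  haveI : Algebra.IsAlgebraic K (C ⧸ P) := Algebra.IsAlgebraic.of_finite K (C ⧸ P)
  infer_instance

/-- Over an algebraically closed `L'` (or any `L'` splitting the residue field) nothing else
is needed: -/
theorem map_eq_prod_ker_of_isAlgClosed [Algebra.FiniteType K C] [PerfectField K] [IsAlgClosed L'] :
    letI : Field (C ⧸ P) := Ideal.Quotient.field P
    haveI := finite_quotient_of_finiteType (K := K) P
    P.map (Algebra.TensorProduct.includeRight : C →ₐ[K] L' ⊗[K] C) =
      ∏ τ : (C ⧸ P) →ₐ[K] L', RingHom.ker (evalAt (ptOf P τ)) := by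
  letI : Field (C ⧸ P) := Ideal.Quotient.field P
  haveI := finite_quotient_of_finiteType (K := K) P
  exact map_eq_prod_ker P (isSeparable_quotient_of_finiteType P) (fun _ => IsAlgClosed.splits _)

end PointIdeals

end Fermat.Agent.T1B.Desc43
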